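/-
Degeneracy maps between `Hom(Γ₀(N), A)` and `Hom(Γ₀(Nq), A)` (owner: helper61).

* `res`   : restriction along `Γ₀(Nq) ≤ Γ₀(N)`;
* `res₂`  : pullback along `γ = [[a,b],[c,d]] ↦ [[a,qb],[c/q,d]]` (= conjugation by `diag(q,1)`);
* `cor`   : transfer from `Γ₀(Nq)` to `Γ₀(N)`;
* `HPar N`: parabolic homs `Γ₀(N) → ℤ`.
-/
import Mathlib.GroupTheory.Transfer
import Mathlib.NumberTheory.ModularForms.CongruenceSubgroups
import Fermat.Prelude.Def_ModularCurve_PeriodMap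

set_option autoImplicit false

namespace Fermat.Agent.LR

open CongruenceSubgroup ModularCurve.Period
open scoped MatrixGroups

/-- Homomorphisms `Γ₀(N) → A`. -/
abbrev Hom1 (N : ℕ) (A : Type*) [AddCommGroup A] := Additive (Gamma0 N) →+ A

/-- Parabolic homomorphisms `Γ₀(N) → ℤ`. -/
abbrev HPar (N : ℕ) := parabolicHoms ℤ (Gamma0 N) ℤ

variable {A : Type*} [AddCommGroup A]

theorem gamma0_mul_le (N q : ℕ) : Gamma0 (N * q) ≤ Gamma0 N := by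
  intro γ hγ
  rw [Gamma0_mem, ZMod.intCast_zmod_eq_zero_iff_dvd] at hγ ⊢
  exact dvd_trans ⟨(q : ℤ), by push_cast; ring⟩ hγ

/-- The inclusion `Γ₀(Nq) → Γ₀(N)`. -/
def inclGamma0 (N q : ℕ) : Gamma0 (N * q) →* Gamma0 N :=
  Subgroup.inclusion (gamma0_mul_le N q)

theorem lowerLeft_eq_mul (N q : ℕ) (γ : Gamma0 (N * q)) :
    (γ : SL(2, ℤ)) 1 0 = (q : ℤ) * ((γ : SL(2, ℤ)) 1 0 / q) :=
  (Int.mul_ediv_cancel' (by
    have h := γ.2
    rw [Gamma0_mem, ZMod.intCast_zmod_eq_zero_iff_dvd] at h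
    exact dvd_trans ⟨(N : ℤ), by push_cast; ring⟩ h)).symm

/-- The matrix `[[a, q b], [c / q, d]]`, i.e. `diag(q,1) γ diag(q,1)⁻¹`. -/
def deltaSL (N q : ℕ) (γ : Gamma0 (N * q)) : SL(2, ℤ) :=
  ⟨!![(γ : SL(2, ℤ)) 0 0, q * (γ : SL(2, ℤ)) 0 1; (γ : SL(2, ℤ)) 1 0 / q, (γ : SL(2, ℤ)) 1 1], by
    have h := Matrix.det_fin_two ((γ : SL(2, ℤ)) : Matrix (Fin 2) (Fin 2) ℤ)
    rw [(γ : SL(2, ℤ)).2, lowerLeft_eq_mul N q γ] at h
    rw [Matrix.det_fin_two_of]; linarith⟩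

theorem deltaSL_mem (N q : ℕ) (γ : Gamma0 (N * q)) : deltaSL N q γ ∈ Gamma0 N := by
  rw [Gamma0_mem, ZMod.intCast_zmod_eq_zero_iff_dvd]
  show (N : ℤ) ∣ (γ : SL(2, ℤ)) 1 0 / q
  rcases eq_or_ne q 0 with rfl | hq
  · simp
  have h := γ.2
  rw [Gamma0_mem, ZMod.intCast_zmod_eq_zero_iff_dvd] at h
  obtain ⟨k, hk⟩ := h
  refine ⟨k, ?_⟩
  rw [hk]; push_cast
  rw [show (N : ℤ) * q * k = q * (N * k) by ring, Int.mul_ediv_cancel_left _ (by exact_mod_cast hq)]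

theorem lowerLeft_ediv_mul (N q : ℕ) (γ δ : Gamma0 (N * q)) :
    ((γ * δ : Gamma0 (N * q)) : SL(2, ℤ)) 1 0 / q =
      ((γ : SL(2, ℤ)) 1 0 / q) * (δ : SL(2, ℤ)) 0 0 +
        (γ : SL(2, ℤ)) 1 1 * ((δ : SL(2, ℤ)) 1 0 / q) := by
  rcases eq_or_ne q 0 with rfl | hq
  · simp
  have h : ((γ * δ : Gamma0 (N * q)) : SL(2, ℤ)) 1 0 =
      (γ : SL(2, ℤ)) 1 0 * (δ : SL(2, ℤ)) 0 0 + (γ : SL(2, ℤ)) 1 1 * (δ : SL(2, ℤ)) 1 0 := by
    simp [Matrix.mul_apply, Fin.sum_univ_two]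
  refine Int.ediv_eq_of_eq_mul_right (by exact_mod_cast hq) ?_
  rw [h]
  linear_combination ((δ : SL(2, ℤ)) 0 0) * lowerLeft_eq_mul N q γ +
    ((γ : SL(2, ℤ)) 1 1) * lowerLeft_eq_mul N q δ

/-- Conjugation by `diag(q,1)`, `Γ₀(Nq) → Γ₀(N)`. -/
def deltaGamma0 (N q : ℕ) : Gamma0 (N * q) →* Gamma0 N :=
  MonoidHom.mk' (fun γ => ⟨deltaSL N q γ, deltaSL_mem N q γ⟩) fun γ δ => by
    apply Subtype.ext; apply Subtype.ext
    show (deltaSL N q (γ * δ)).1 = (deltaSL N q γ).1 * (deltaSL N q δ).1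
    have e1 := lowerLeft_eq_mul N q γ
    have e2 := lowerLeft_eq_mul N q δ
    have e3 := lowerLeft_ediv_mul N q γ δ
    simp only [deltaSL, Subgroup.coe_mul, Matrix.SpecialLinearGroup.coe_mul] at *
    ext i j
    fin_cases i <;> fin_cases j <;> simp [Matrix.mul_apply, Fin.sum_univ_two] at *
    · linear_combination ((γ : SL(2, ℤ)) 0 1) * e2
    · ring
    · exact e3
    · linear_combination ((δ : SL(2, ℤ)) 0 1) * e1

/-- Restriction `Hom(Γ₀(N), A) → Hom(Γ₀(Nq), A)`. -/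
def res (N q : ℕ) : Hom1 N A →ₗ[ℤ] Hom1 (N * q) A where
  toFun φ := φ.comp (MonoidHom.toAdditive (inclGamma0 N q))
  map_add' _ _ := rfl
  map_smul' _ _ := rfl

/-- The second degeneracy map `Hom(Γ₀(N), A) → Hom(Γ₀(Nq), A)`. -/
def res₂ (N q : ℕ) : Hom1 N A →ₗ[ℤ] Hom1 (N * q) A where
  toFun φ := φ.comp (MonoidHom.toAdditive (deltaGamma0 N q))
  map_add' _ _ := rfl
  map_smul' _ _ := rfl

theorem res_apply (N q : ℕ) (φ : Hom1 N A) (γ : Gamma0 (N * q)) :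
    res N q φ (Additive.ofMul γ) = φ (Additive.ofMul (inclGamma0 N q γ)) := rfl

theorem res₂_apply (N q : ℕ) (φ : Hom1 N A) (γ : Gamma0 (N * q)) :
    res₂ N q φ (Additive.ofMul γ) = φ (Additive.ofMul (deltaGamma0 N q γ)) := rfl

/-- `Γ₀(Nq)` as a subgroup of `Γ₀(N)`. -/
abbrev levelSub (N q : ℕ) : Subgroup (Gamma0 N) := (Gamma0 (N * q)).subgroupOf (Gamma0 N)

/-- `φ` on `Γ₀(Nq)` as a multiplicative hom on the subgroup of `Γ₀(N)`. -/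
def levelSubHom (N q : ℕ) (φ : Hom1 (N * q) A) : levelSub N q →* Multiplicative A :=
  (AddMonoidHom.toMultiplicativeRight φ).comp
    (Subgroup.subgroupOfEquivOfLe (gamma0_mul_le N q)).toMonoidHom

theorem levelSubHom_add (N q : ℕ) (φ ψ : Hom1 (N * q) A) :
    levelSubHom N q (φ + ψ) = levelSubHom N q φ * levelSubHom N q ψ := rfl

/-- Transfer `Hom(Γ₀(Nq), A) → Hom(Γ₀(N), A)`. -/
noncomputable def cor (N q : ℕ) [NeZero N] [NeZero q] : Hom1 (N * q) A →ₗ[ℤ] Hom1 N A :=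
  (AddMonoidHom.mk'
    (fun φ => MonoidHom.toAdditiveLeft (MonoidHom.transfer (levelSubHom N q φ)))
    (fun φ ψ => by
      refine AddMonoidHom.ext fun g => ?_
      show Multiplicative.toAdd (MonoidHom.transfer (levelSubHom N q (φ + ψ)) g.toMul) = _
      rw [levelSubHom_add]
      show Multiplicative.toAdd (Subgroup.leftTransversals.diff _ _ _) = _
      simp only [Subgroup.leftTransversals.diff, MonoidHom.mul_apply, Finset.prod_mul_distrib]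
      rfl)).toIntLinearMap

/-- The Hecke operator `T_q` (`q ∤ N`) on `Hom(Γ₀(N), A)`: `cor ∘ res₂`. -/
noncomputable def heckeDeg (N q : ℕ) [NeZero N] [NeZero q] : Hom1 N A →ₗ[ℤ] Hom1 N A :=
  (cor N q).comp (res₂ N q)

/-- `[[x, y], [N, q]]` with `q x - N y = 1`. -/
def atkinAuxSL (N q : ℕ) (h : q.Coprime N) : SL(2, ℤ) :=
  ⟨!![q.gcdA N, -q.gcdB N; (N : ℤ), (q : ℤ)], by
      have e : ((q.gcd N : ℕ) : ℤ) = q * q.gcdA N + N * q.gcdB N := Nat.gcd_eq_gcd_ab q N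
      rw [h.gcd_eq_one] at e
      rw [Matrix.det_fin_two_of]; push_cast at e; linarith⟩

theorem atkinAuxSL_mem (N q : ℕ) (h : q.Coprime N) : atkinAuxSL N q h ∈ Gamma0 N := by
  rw [Gamma0_mem]
  show (((N : ℤ)) : ZMod N) = 0
  simp

/-- `[[x, y], [N, q]]` as an element of `Γ₀(N)`. -/
def atkinAux (N q : ℕ) (h : q.Coprime N) : Gamma0 N :=
  ⟨atkinAuxSL N q h, atkinAuxSL_mem N q h⟩

theorem atkinAux_mul_mul_inv_mem (N q : ℕ) (h : q.Coprime N) (γ : Gamma0 (N * q)) :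
    ((atkinAux N q h * deltaGamma0 N q γ * (atkinAux N q h)⁻¹ : Gamma0 N) : SL(2, ℤ)) ∈
      Gamma0 (N * q) := by
  rw [Gamma0_mem, ZMod.intCast_zmod_eq_zero_iff_dvd]
  obtain ⟨k, hk⟩ : (N : ℤ) ∣ (γ : SL(2, ℤ)) 1 0 / q := by
    have h := deltaSL_mem N q γ
    rwa [Gamma0_mem, ZMod.intCast_zmod_eq_zero_iff_dvd] at h
  refine ⟨(γ : SL(2, ℤ)) 0 0 + q * k - N * (γ : SL(2, ℤ)) 0 1 - (γ : SL(2, ℤ)) 1 1, ?_⟩
  show ((atkinAuxSL N q h * deltaSL N q γ * (atkinAuxSL N q h)⁻¹ : SL(2, ℤ))) 1 0 = _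
  have eA : (atkinAuxSL N q h).1 = !![q.gcdA N, -q.gcdB N; (N : ℤ), (q : ℤ)] := rfl
  have eD : (deltaSL N q γ).1 = !![(γ : SL(2, ℤ)) 0 0, q * (γ : SL(2, ℤ)) 0 1;
      (γ : SL(2, ℤ)) 1 0 / q, (γ : SL(2, ℤ)) 1 1] := rfl
  rw [Matrix.SpecialLinearGroup.coe_mul, Matrix.SpecialLinearGroup.coe_mul,
    Matrix.SpecialLinearGroup.coe_inv, eA, eD, Matrix.adjugate_fin_two_of]
  simp [Matrix.mul_apply, Fin.sum_univ_two, hk]
  ring

/-- Conjugation by an Atkin-Lehner matrix `W_q` on `Γ₀(Nq)`. -/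
def atkinGamma0 (N q : ℕ) (h : q.Coprime N) : Gamma0 (N * q) →* Gamma0 (N * q) :=
  MonoidHom.mk'
    (fun γ => ⟨(atkinAux N q h * deltaGamma0 N q γ * (atkinAux N q h)⁻¹ : Gamma0 N),
      atkinAux_mul_mul_inv_mem N q h γ⟩)
    fun γ δ => by
      apply Subtype.ext
      simp [map_mul, mul_assoc]

/-- The Atkin-Lehner operator `W_q` on `Hom(Γ₀(Nq), A)`. -/
def atkin (N q : ℕ) (h : q.Coprime N) : Hom1 (N * q) A →ₗ[ℤ] Hom1 (N * q) A where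
  toFun φ := φ.comp (MonoidHom.toAdditive (atkinGamma0 N q h))
  map_add' _ _ := rfl
  map_smul' _ _ := rfl

theorem atkin_res (N q : ℕ) (h : q.Coprime N) (φ : Hom1 N A) :
    atkin N q h (res N q φ) = res₂ N q φ := by
  refine AddMonoidHom.ext fun γ => ?_
  show φ (Additive.ofMul
      (atkinAux N q h * deltaGamma0 N q γ.toMul * (atkinAux N q h)⁻¹)) =
    φ (Additive.ofMul (deltaGamma0 N q γ.toMul))
  rw [ofMul_mul, ofMul_mul, map_add, map_add, ofMul_inv, map_neg]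
  abel

end Fermat.Agent.LR
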