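/-
A change of variables induces an equivariant isomorphism of point groups (owner: helper61).
-/
import Mathlib.AlgebraicGeometry.EllipticCurve.Affine.Point
import Mathlib.AlgebraicGeometry.EllipticCurve.VariableChange
import Fermat.Prelude.Def_FLTPrelim_GaloisRep

set_option autoImplicit false

namespace Fermat.Agent.LR

open WeierstrassCurve WeierstrassCurve.Affine
open scoped WeierstrassCurve.Affine

section Field

variable {F : Type*} [Field F] (W : WeierstrassCurve F) (C : VariableChange F)

/-- `x = u² X + r`. -/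
def cvX (x : F) : F := (C.u : F) ^ 2 * x + C.r

/-- `y = u³ Y + u² s X + t`. -/
def cvY (x y : F) : F := (C.u : F) ^ 3 * y + (C.u : F) ^ 2 * C.s * x + C.t

theorem cvX_inj {x x' : F} : cvX C x = cvX C x' ↔ x = x' := by
  simp [cvX, C.u.ne_zero]

theorem cvY_inj {x y y' : F} : cvY C x y = cvY C x y' ↔ y = y' := by
  simp [cvY, C.u.ne_zero]

theorem cv_negY (x y : F) :
    W.toAffine.negY (cvX C x) (cvY C x y) = cvY C x ((C • W).toAffine.negY x y) := by
  have hu : (C.u : F) ≠ 0 := C.u.ne_zero
  simp only [negY, cvX, cvY, variableChange_a₁, variableChange_a₃, Units.val_inv_eq_inv_val]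
  field_simp
  ring

theorem cv_equation_iff (x y : F) :
    W.toAffine.Equation (cvX C x) (cvY C x y) ↔ (C • W).toAffine.Equation x y := by
  have hu : (C.u : F) ≠ 0 := C.u.ne_zero
  have h6 : (C.u : F) ^ 6 ≠ 0 := pow_ne_zero _ hu
  rw [equation_iff', equation_iff']
  simp only [cvX, cvY, variableChange_a₁, variableChange_a₂, variableChange_a₃, variableChange_a₄,
    variableChange_a₆, Units.val_inv_eq_inv_val]
  conv_rhs => rw [← mul_right_inj' h6, mul_zero]
  field_simp
  constructor <;> intro h <;> linear_combination h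

theorem cv_denom (x y : F) :
    cvY C x y - W.toAffine.negY (cvX C x) (cvY C x y) =
      (C.u : F) ^ 3 * (y - (C • W).toAffine.negY x y) := by
  rw [cv_negY]; simp only [cvY]; ring

theorem cv_num (x y : F) :
    3 * cvX C x ^ 2 + 2 * W.toAffine.a₂ * cvX C x + W.toAffine.a₄ - W.toAffine.a₁ * cvY C x y =
      (C.u : F) ^ 4 * (3 * x ^ 2 + 2 * (C • W).toAffine.a₂ * x + (C • W).toAffine.a₄ -
        (C • W).toAffine.a₁ * y) + C.s * ((C.u : F) ^ 3 * (y - (C • W).toAffine.negY x y)) := by
  have hu : (C.u : F) ≠ 0 := C.u.ne_zero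
  simp only [negY, cvX, cvY, variableChange_a₁, variableChange_a₂, variableChange_a₃,
    variableChange_a₄, Units.val_inv_eq_inv_val]
  field_simp
  ring

theorem cv_nonsingular {x y : F} (h : (C • W).toAffine.Nonsingular x y) :
    W.toAffine.Nonsingular (cvX C x) (cvY C x y) := by
  have hu : (C.u : F) ≠ 0 := C.u.ne_zero
  rw [nonsingular_iff] at h ⊢
  refine ⟨(cv_equation_iff W C x y).mpr h.1, ?_⟩
  have e1 := cv_num W C x y
  have e2 := cv_denom W C x y
  simp only [negY] at e1 e2
  by_cases hy : y = -y - (C • W).toAffine.a₁ * x - (C • W).toAffine.a₃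
  · left
    have hX := h.2.resolve_right (fun h' => h' hy)
    rw [sub_eq_zero.mpr hy, mul_zero, mul_zero, add_zero] at e1
    intro hc
    rw [hc, sub_self] at e1
    rcases mul_eq_zero.mp e1.symm with h4 | h4
    · exact pow_ne_zero _ hu h4
    · exact hX (by linear_combination -h4)
  · right
    intro hc
    rw [sub_eq_zero.mpr hc] at e2
    rcases mul_eq_zero.mp e2.symm with h3 | h3
    · exact pow_ne_zero _ hu h3
    · exact hy (sub_eq_zero.mp h3)

variable [DecidableEq F]

theorem cv_slope {x₁ x₂ y₁ y₂ : F} (h₁ : (C • W).toAffine.Equation x₁ y₁)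
    (h₂ : (C • W).toAffine.Equation x₂ y₂)
    (hxy : ¬ (x₁ = x₂ ∧ y₁ = (C • W).toAffine.negY x₂ y₂)) :
    W.toAffine.slope (cvX C x₁) (cvX C x₂) (cvY C x₁ y₁) (cvY C x₂ y₂) =
      (C.u : F) * (C • W).toAffine.slope x₁ x₂ y₁ y₂ + C.s := by
  have hu : (C.u : F) ≠ 0 := C.u.ne_zero
  by_cases hx : x₁ = x₂
  · subst hx
    have hy : y₁ ≠ (C • W).toAffine.negY x₁ y₂ := fun h => hxy ⟨rfl, h⟩
    have hy' : cvY C x₁ y₁ ≠ W.toAffine.negY (cvX C x₁) (cvY C x₁ y₂) := by
      rw [cv_negY, Ne, cvY_inj]; exact hy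
    have hd : y₁ - (C • W).toAffine.negY x₁ y₁ ≠ 0 := by
      have e : y₁ = y₂ := Y_eq_of_Y_ne h₁ h₂ rfl hy
      subst e
      exact sub_ne_zero.mpr hy
    rw [slope_of_Y_ne rfl hy', slope_of_Y_ne rfl hy, cv_num, cv_denom]
    generalize y₁ - (C • W).toAffine.negY x₁ y₁ = D at hd
    field_simp
  · have hx' : cvX C x₁ ≠ cvX C x₂ := by rw [Ne, cvX_inj]; exact hx
    rw [slope_of_X_ne hx', slope_of_X_ne hx]
    have : x₁ - x₂ ≠ 0 := sub_ne_zero.mpr hx
    simp only [cvX, cvY]
    rw [show ((C.u : F) ^ 2 * x₁ + C.r) - ((C.u : F) ^ 2 * x₂ + C.r) = (C.u : F) ^ 2 * (x₁ - x₂) by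
      ring]
    field_simp
    ring

/-- The point on `W` attached to a point on `C • W`. -/
def cvPointFun : (C • W).toAffine.Point → W.toAffine.Point
  | .zero => .zero
  | .some _ _ h => .some _ _ (cv_nonsingular W C h)

theorem cvPointFun_add (P Q : (C • W).toAffine.Point) :
    cvPointFun W C (P + Q) = cvPointFun W C P + cvPointFun W C Q := by
  rcases P with _ | ⟨x₁, y₁, h₁⟩
  · exact (congrArg _ (zero_add Q)).trans (zero_add _).symm
  rcases Q with _ | ⟨x₂, y₂, h₂⟩
  · exact (congrArg _ (add_zero _)).trans (add_zero _).symm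
  by_cases hxy : x₁ = x₂ ∧ y₁ = (C • W).toAffine.negY x₂ y₂
  · rw [Point.add_of_Y_eq hxy.1 hxy.2]
    show (0 : W.toAffine.Point) = Point.some _ _ _ + Point.some _ _ _
    rw [Point.add_of_Y_eq (by rw [hxy.1]) (by rw [cv_negY, hxy.1, hxy.2])]
  · have hxy' : ¬ (cvX C x₁ = cvX C x₂ ∧ cvY C x₁ y₁ = W.toAffine.negY (cvX C x₂) (cvY C x₂ y₂)) := by
      rintro ⟨e1, e2⟩
      rw [cvX_inj] at e1
      rw [cv_negY, e1, cvY_inj] at e2
      exact hxy ⟨e1, e2⟩
    rw [Point.add_some hxy]
    show Point.some _ _ _ = Point.some _ _ (cv_nonsingular W C h₁) +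
      Point.some _ _ (cv_nonsingular W C h₂)
    rw [Point.add_some hxy']
    have hs := cv_slope W C h₁.1 h₂.1 hxy
    have hu : (C.u : F) ≠ 0 := C.u.ne_zero
    have e1 : W.toAffine.addX (cvX C x₁) (cvX C x₂)
        (W.toAffine.slope (cvX C x₁) (cvX C x₂) (cvY C x₁ y₁) (cvY C x₂ y₂)) =
        cvX C ((C • W).toAffine.addX x₁ x₂ ((C • W).toAffine.slope x₁ x₂ y₁ y₂)) := by
      rw [hs]
      generalize (C • W).toAffine.slope x₁ x₂ y₁ y₂ = L
      simp only [addX, cvX, variableChange_a₁, variableChange_a₂, Units.val_inv_eq_inv_val]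
      field_simp
      ring
    simp only [Point.some.injEq]
    refine ⟨e1.symm, ?_⟩
    simp only [addY, negAddY, e1]
    rw [← cv_negY, hs]
    generalize (C • W).toAffine.slope x₁ x₂ y₁ y₂ = L
    generalize (C • W).toAffine.addX x₁ x₂ L = X
    congr 1
    simp only [cvX, cvY]
    ring

/-- `(C • W)(F) → W(F)`, as a group homomorphism. -/
def cvPoint : (C • W).toAffine.Point →+ W.toAffine.Point where
  toFun := cvPointFun W C
  map_zero' := rfl
  map_add' := cvPointFun_add W C

theorem cvPoint_injective : Function.Injective (cvPoint W C) := by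
  rintro (_ | ⟨x, y, h⟩) (_ | ⟨x', y', h'⟩) e
  · rfl
  · exact absurd e.symm (Point.some_ne_zero _)
  · exact absurd e (Point.some_ne_zero _)
  · change Point.some _ _ (cv_nonsingular W C h) = Point.some _ _ (cv_nonsingular W C h') at e
    injection e with e1 e2
    rw [cvX_inj] at e1
    subst e1
    rw [cvY_inj] at e2
    subst e2
    rfl

end Field

section Galois

variable {K₀ : Type*} [Field K₀] {K : Type*} [Field K] [Algebra K₀ K] [DecidableEq K]
  (E : WeierstrassCurve K₀) (C : VariableChange K₀)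

omit [DecidableEq K] in
theorem baseChange_smul :
    (C • E)⁄K = C.baseChange K • E⁄K :=
  (E.map_variableChange (φ := algebraMap K₀ K) C).symm

theorem exists_cvBasePoint :
    ∃ T : ((C • E).toAffine⁄K).Point →+ (E.toAffine⁄K).Point, Function.Injective T ∧
      T 0 = 0 ∧ ∀ (x y : K) (h : ((C • E).toAffine⁄K).Nonsingular x y),
        ∃ h' : (E.toAffine⁄K).Nonsingular (cvX (C.baseChange K) x) (cvY (C.baseChange K) x y),
          T (Point.some x y h) = Point.some _ _ h' := by
  have key : ∀ V : WeierstrassCurve.Affine K, V = (C.baseChange K • E⁄K).toAffine →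
      ∃ T : V.Point →+ (E.toAffine⁄K).Point, Function.Injective T ∧
      T 0 = 0 ∧ ∀ (x y : K) (h : V.Nonsingular x y),
        ∃ h' : (E.toAffine⁄K).Nonsingular (cvX (C.baseChange K) x) (cvY (C.baseChange K) x y),
          T (Point.some x y h) = Point.some _ _ h' := by
    rintro V rfl
    exact ⟨cvPoint (E⁄K) (C.baseChange K), cvPoint_injective _ _, rfl,
      fun x y h => ⟨cv_nonsingular _ _ h, rfl⟩⟩
  exact key _ (baseChange_smul E C)

/-- The map on `K`-points induced by a change of variables over `K₀`. -/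
noncomputable def cvBasePoint : ((C • E).toAffine⁄K).Point →+ (E.toAffine⁄K).Point :=
  (exists_cvBasePoint E C).choose

theorem cvBasePoint_injective : Function.Injective (cvBasePoint (K := K) E C) :=
  (exists_cvBasePoint E C).choose_spec.1

theorem cvBasePoint_some {x y : K} (h : ((C • E).toAffine⁄K).Nonsingular x y) :
    ∃ h' : (E.toAffine⁄K).Nonsingular (cvX (C.baseChange K) x) (cvY (C.baseChange K) x y),
      cvBasePoint E C (Point.some x y h) = Point.some _ _ h' :=
  (exists_cvBasePoint E C).choose_spec.2.2 x y h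

theorem cvBasePoint_smul (σ : K ≃ₐ[K₀] K) (P : ((C • E).toAffine⁄K).Point) :
    cvBasePoint E C (σ • P) = σ • (cvBasePoint E C P : (E.toAffine⁄K).Point) := by
  rcases P with _ | ⟨x, y, h⟩
  · show cvBasePoint E C (σ • 0) = σ • cvBasePoint E C 0
    simp
  · obtain ⟨h1, e1⟩ := cvBasePoint_some E C h
    rw [e1, Point.algEquiv_smul_def, Point.algEquiv_smul_def, Point.map_some, Point.map_some]
    obtain ⟨h2, e2⟩ := cvBasePoint_some E C ((((C • E).toAffine).baseChange_nonsingular
      σ.toAlgHom.injective x y).mpr h)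
    rw [e2, Point.some.injEq]
    constructor <;> simp [cvX, cvY, VariableChange.baseChange, VariableChange.map]

/-- If `E[n]` is irreducible, then every Galois stable submodule of `(C • E)[n]` is trivial. -/
theorem stable_eq_bot_or_top_of_irreducible {n : ℕ}
    (h : Point.GaloisRepIsIrreducible (K := K) K₀ E.toAffine n)
    (N : Submodule (ZMod n) (Submodule.torsionBy ℤ ((C • E).toAffine⁄K).Point n))
    (hN : Point.IsGaloisStable K₀ N) : N = ⊥ ∨ N = ⊤ := by
  let T : Submodule.torsionBy ℤ ((C • E).toAffine⁄K).Point n →+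
      Submodule.torsionBy ℤ (E.toAffine⁄K).Point n :=
    AddMonoidHom.mk'
      (fun P => ⟨cvBasePoint (K := K) E C P.1, by
        have := P.2
        rw [Submodule.mem_torsionBy_iff] at this ⊢
        exact (map_zsmul (cvBasePoint (K := K) E C) _ _).symm.trans (by rw [this]; exact map_zero _)⟩)
      (fun P Q => Subtype.ext (map_add (cvBasePoint (K := K) E C) P.1 Q.1))
  have hT : Function.Injective T := fun P Q e =>
    Subtype.ext (cvBasePoint_injective E C (congrArg Subtype.val e))
  let L := T.toZModLinearMap n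
  have hst : Point.IsGaloisStable K₀ (N.map L) := by
    rintro σ _ ⟨x, hx, rfl⟩
    exact ⟨σ • x, hN σ x hx, Subtype.ext (cvBasePoint_smul E C σ x.1)⟩
  rcases h.2 _ hst with h0 | h1
  · left
    rw [eq_bot_iff]
    intro x hx
    have := Submodule.mem_map_of_mem (f := L) hx
    rw [h0, Submodule.mem_bot] at this
    exact hT (this.trans (map_zero T).symm)
  · right
    rw [eq_top_iff]
    intro x _
    obtain ⟨y, hy, he⟩ : L x ∈ N.map L := h1 ▸ trivial
    exact hT he ▸ hy

end Galois

end Fermat.Agent.LR
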