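/-
Identities between the degeneracy maps, Atkin-Lehner and Hecke operators (owner: helper61).
-/
import Fermat.Agent.LR.Degeneracy
import Fermat.Agent.HK.HeckeHom
import Fermat.Agent.HK.HeckeStar

set_option autoImplicit false

noncomputable section

namespace Fermat.Agent.LR

open CongruenceSubgroup ModularCurve.Period
open scoped MatrixGroups

variable {A : Type*} [AddCommGroup A]

local notation "M₂" => Matrix (Fin 2) (Fin 2) ℤ

/-- `diag(q, 1)`. -/
def diagMat (q : ℕ) : M₂ := !![(q : ℤ), 0; 0, 1]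

theorem deltaGamma0_mul_diagMat (N q : ℕ) (γ : Gamma0 (N * q)) :
    ((deltaGamma0 N q γ : SL(2, ℤ)) : M₂) * diagMat q = diagMat q * ((γ : SL(2, ℤ)) : M₂) := by
  show (deltaSL N q γ).1 * diagMat q = _
  have e1 := lowerLeft_eq_mul N q γ
  have e : (deltaSL N q γ).1 = !![(γ : SL(2, ℤ)) 0 0, q * (γ : SL(2, ℤ)) 0 1;
      (γ : SL(2, ℤ)) 1 0 / q, (γ : SL(2, ℤ)) 1 1] := rfl
  rw [e]
  ext i j
  fin_cases i <;> fin_cases j <;> simp [diagMat, Matrix.mul_apply, Fin.sum_univ_two] <;>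
    first
      | ring1
      | linear_combination -e1

theorem diagMat_cancel {q : ℕ} (hq : q ≠ 0) {X Y : M₂} (h : X * diagMat q = Y * diagMat q) :
    X = Y := by
  have hq' : (q : ℤ) ≠ 0 := by exact_mod_cast hq
  ext i j
  have hi := congrFun (congrFun h i) j
  fin_cases j <;> simp [diagMat, Matrix.mul_apply, Fin.sum_univ_two] at hi <;>
    first
      | exact hi.resolve_right hq
      | exact hi

theorem diagMat_cancel_left {q : ℕ} (hq : q ≠ 0) {X Y : M₂} (h : diagMat q * X = diagMat q * Y) :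
    X = Y := by
  ext i j
  have hi := congrFun (congrFun h i) j
  fin_cases i <;> simp [diagMat, Matrix.mul_apply, Fin.sum_univ_two] at hi <;>
    first
      | exact hi.resolve_right hq
      | exact hi

theorem trace_deltaGamma0 (N q : ℕ) (γ : Gamma0 (N * q)) :
    ((deltaGamma0 N q γ : SL(2, ℤ)) : M₂).trace = ((γ : SL(2, ℤ)) : M₂).trace := by
  show (deltaSL N q γ).1.trace = _
  simp [deltaSL, Matrix.trace_fin_two]

theorem atkinGamma0_coe (N q : ℕ) (h : q.Coprime N) (γ : Gamma0 (N * q)) :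
    ((atkinGamma0 N q h γ : SL(2, ℤ))) =
      (atkinAux N q h : SL(2, ℤ)) * (deltaGamma0 N q γ : SL(2, ℤ)) *
        (atkinAux N q h : SL(2, ℤ))⁻¹ := rfl

theorem trace_atkinGamma0 (N q : ℕ) (h : q.Coprime N) (γ : Gamma0 (N * q)) :
    ((atkinGamma0 N q h γ : SL(2, ℤ)) : M₂).trace = ((γ : SL(2, ℤ)) : M₂).trace := by
  rw [atkinGamma0_coe, Matrix.SpecialLinearGroup.coe_mul, Matrix.SpecialLinearGroup.coe_mul,
    Matrix.trace_mul_cycle, ← Matrix.SpecialLinearGroup.coe_mul, inv_mul_cancel,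
    Matrix.SpecialLinearGroup.coe_one, one_mul, trace_deltaGamma0]

theorem res_isParabolicHom (N q : ℕ) {φ : Hom1 N A} (hφ : IsParabolicHom (Gamma0 N) φ) :
    IsParabolicHom (Gamma0 (N * q)) (res N q φ) :=
  fun γ hγ => hφ (inclGamma0 N q γ) hγ

theorem res₂_isParabolicHom (N q : ℕ) {φ : Hom1 N A} (hφ : IsParabolicHom (Gamma0 N) φ) :
    IsParabolicHom (Gamma0 (N * q)) (res₂ N q φ) :=
  fun γ hγ => hφ (deltaGamma0 N q γ) (by rw [trace_deltaGamma0]; exact hγ)

theorem atkin_isParabolicHom (N q : ℕ) (h : q.Coprime N) {φ : Hom1 (N * q) A}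
    (hφ : IsParabolicHom (Gamma0 (N * q)) φ) :
    IsParabolicHom (Gamma0 (N * q)) (atkin N q h φ) :=
  fun γ hγ => hφ (atkinGamma0 N q h γ) (by rw [trace_atkinGamma0]; exact hγ)

section Cor

variable (N q : ℕ) [NeZero N] [NeZero q]

/-- `cor` from any system of representatives. -/
theorem cor_apply_reps {ι : Type*} [Fintype ι] (c : ι → Gamma0 N)
    (hc : Function.Bijective fun i => (((c i)⁻¹ : Gamma0 N) : Gamma0 N ⧸ levelSub N q))
    (φ : Hom1 (N * q) A) (g : Gamma0 N) (σ : ι → ι)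
    (h : ∀ i, c i * g * (c (σ i))⁻¹ ∈ levelSub N q) :
    cor N q φ (Additive.ofMul g) =
      ∑ i, φ (Additive.ofMul
        (⟨((c i * g * (c (σ i))⁻¹ : Gamma0 N) : SL(2, ℤ)), h i⟩ : Gamma0 (N * q))) := by
  apply Multiplicative.ofAdd.injective
  rw [ofAdd_sum]
  exact HK.transfer_eq_prod_reps (levelSubHom N q φ) c hc g σ h

theorem cor_isParabolicHom {φ : Hom1 (N * q) A} (hφ : IsParabolicHom (Gamma0 (N * q)) φ) :
    IsParabolicHom (Gamma0 N) (cor N q φ) := by
  classical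
  intro g hg
  apply Multiplicative.ofAdd.injective
  let := (levelSub N q).fintypeQuotientOfFiniteIndex
  show MonoidHom.transfer (levelSubHom N q φ) g = _
  rw [MonoidHom.transfer_eq_prod_quotient_orbitRel_zpowers_quot, ofAdd_zero]
  refine Finset.prod_eq_one fun r _ => congrArg Multiplicative.ofAdd (hφ _ ?_)
  set m := Function.minimalPeriod (g • ·) r.out
  have h1 := HK.sq_trace_pow_eq_four (g : SL(2, ℤ)) hg m
  show (((((r.out.out : Gamma0 N)⁻¹ * g ^ m * r.out.out : Gamma0 N)) : SL(2, ℤ)) : M₂).trace ^ 2 = 4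
  simp only [Subgroup.coe_mul, Subgroup.coe_inv, SubgroupClass.coe_pow,
    Matrix.SpecialLinearGroup.coe_mul]
  rw [Matrix.trace_mul_cycle, ← Matrix.SpecialLinearGroup.coe_mul, mul_inv_cancel,
    Matrix.SpecialLinearGroup.coe_one, Matrix.one_mul]
  simpa using h1

end Cor

section Reps

variable (N q : ℕ)

/-- `T^j`. -/
def translSL (j : ℤ) : SL(2, ℤ) :=
  ⟨!![1, j; 0, 1], by simp [Matrix.det_fin_two_of]⟩

theorem translSL_mem (j : ℤ) : translSL j ∈ Gamma0 N := by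
  rw [Gamma0_mem]
  show (((0 : ℤ)) : ZMod N) = 0
  simp

/-- `T^j` in `Γ₀(N)`. -/
def transl (j : ℤ) : Gamma0 N := ⟨translSL j, translSL_mem N j⟩

theorem coe_transl (j : ℤ) : ((transl N j : SL(2, ℤ)) : M₂) = !![1, j; 0, 1] := rfl

theorem coe_atkinAux (h : q.Coprime N) :
    ((atkinAux N q h : SL(2, ℤ)) : M₂) = !![q.gcdA N, -q.gcdB N; (N : ℤ), (q : ℤ)] := rfl

/-- Representatives of `Γ₀(Nq) \ Γ₀(N)`. -/
def degRep (h : q.Coprime N) : Option (Fin q) → Gamma0 N
  | none => 1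
  | some j => atkinAux N q h * transl N (j : ℤ)

theorem degRep_bijective [NeZero N] (hq : q.Prime) (h : q.Coprime N) :
    Function.Bijective fun i => (((degRep N q h i)⁻¹ : Gamma0 N) : Gamma0 N ⧸ levelSub N q) := by
  have : Fact q.Prime := ⟨hq⟩
  have hN0 : (N : ℤ) ≠ 0 := by exact_mod_cast NeZero.ne N
  have hNq : ((N : ℤ) : ZMod q) ≠ 0 := by
    rw [Ne, Int.cast_natCast, ZMod.natCast_eq_zero_iff]
    exact (Nat.Prime.coprime_iff_not_dvd hq).mp h
  have low : ∀ j : Fin q, ((degRep N q h (some j) : SL(2, ℤ)) 1 0 = (N : ℤ)) ∧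
      ((degRep N q h (some j) : SL(2, ℤ)) 1 1 = (N : ℤ) * j + q) := by
    intro j
    show (((atkinAux N q h : SL(2, ℤ)) * (transl N (j : ℤ) : SL(2, ℤ)) : SL(2, ℤ))) 1 0 = _ ∧ _
    rw [degRep, Subgroup.coe_mul, Matrix.SpecialLinearGroup.coe_mul, coe_atkinAux, coe_transl]
    constructor <;> simp [Matrix.mul_apply, Fin.sum_univ_two]
  have lown : (degRep N q h none : SL(2, ℤ)) 1 0 = 0 ∧ (degRep N q h none : SL(2, ℤ)) 1 1 = 1 :=
    ⟨rfl, rfl⟩
  have ne : ∀ j : Fin q, (((degRep N q h (some j))⁻¹ : Gamma0 N) : Gamma0 N ⧸ levelSub N q) ≠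
      ((degRep N q h none)⁻¹ : Gamma0 N) := by
    intro j e
    rw [HK.mk_inv_eq_mk_inv_iff, (low j).1, (low j).2, lown.1, lown.2] at e
    simp only [mul_one, mul_zero, sub_zero] at e
    push_cast at e
    have : (q : ℤ) ∣ 1 :=
      (mul_dvd_mul_iff_left hN0).mp (show (N : ℤ) * q ∣ N * 1 by simpa using e)
    exact hq.not_dvd_one (by exact_mod_cast this)
  refine ⟨?_, fun x => ?_⟩
  · rintro (_ | i) (_ | j) e
    · rfl
    · exact absurd e.symm (ne j)
    · exact absurd e (ne i)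
    · rw [HK.mk_inv_eq_mk_inv_iff, (low i).1, (low i).2, (low j).1, (low j).2] at e
      push_cast at e
      rw [show (N : ℤ) * (N * j + q) - (N * i + q) * N = N * (N * ((j : ℤ) - i)) by ring,
        mul_dvd_mul_iff_left hN0, ← ZMod.intCast_zmod_eq_zero_iff_dvd] at e
      push_cast at e
      rw [mul_eq_zero, or_iff_right (by simpa using hNq), sub_eq_zero] at e
      congr 1
      apply Fin.ext
      have := congrArg ZMod.val e.symm
      rwa [ZMod.val_cast_of_lt i.isLt, ZMod.val_cast_of_lt j.isLt] at this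
  · obtain ⟨g, rfl⟩ := QuotientGroup.mk_surjective x
    obtain ⟨g, rfl⟩ : ∃ g', g = g'⁻¹ := ⟨g⁻¹, (inv_inv g).symm⟩
    obtain ⟨c, hc⟩ := HK.dvd_gamma0_lower_left N g
    set d := (g : SL(2, ℤ)) 1 1
    by_cases hcq : (q : ℤ) ∣ c
    · refine ⟨none, ?_⟩
      show (((degRep N q h none)⁻¹ : Gamma0 N) : Gamma0 N ⧸ levelSub N q) = _
      rw [HK.mk_inv_eq_mk_inv_iff, lown.1, lown.2, hc]
      push_cast
      simpa using mul_dvd_mul_left (N : ℤ) hcq
    · have hc' : (c : ZMod q) ≠ 0 := by rwa [Ne, ZMod.intCast_zmod_eq_zero_iff_dvd]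
      set u : ZMod q := (d : ZMod q) / ((c : ZMod q) * ((N : ℤ) : ZMod q)) with hu
      refine ⟨some ⟨u.val, u.val_lt⟩, ?_⟩
      show (((degRep N q h (some _))⁻¹ : Gamma0 N) : Gamma0 N ⧸ levelSub N q) = _
      rw [HK.mk_inv_eq_mk_inv_iff, (low _).1, (low _).2, hc]
      push_cast
      rw [show (N : ℤ) * d - ((N : ℤ) * u.val + q) * (N * c) =
        N * (d - (N * u.val + q) * c) by ring]
      refine mul_dvd_mul_left _ ?_
      rw [← ZMod.intCast_zmod_eq_zero_iff_dvd]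
      push_cast
      rw [ZMod.natCast_zmod_val, hu, ZMod.natCast_self, add_zero]
      simp only [Int.cast_natCast] at hNq ⊢
      field_simp
      ring

end Reps

section Identities

variable (N q : ℕ) [NeZero N] [NeZero q]

theorem cor_res (hq : q.Prime) (h : q.Coprime N) (φ : Hom1 N A) :
    cor N q (res N q φ) = ((q : ℤ) + 1) • φ := by
  refine AddMonoidHom.ext fun g => ?_
  obtain ⟨g, rfl⟩ := Additive.ofMul.surjective g
  have hb := degRep_bijective N q hq h
  let σ := HK.repPerm _ hb g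
  rw [cor_apply_reps N q _ hb _ g σ (HK.repPerm_mem _ hb g)]
  have e : ∀ i, res N q φ (Additive.ofMul
      (⟨((degRep N q h i * g * (degRep N q h (σ i))⁻¹ : Gamma0 N) : SL(2, ℤ)),
        HK.repPerm_mem _ hb g i⟩ : Gamma0 (N * q))) =
      φ (Additive.ofMul (degRep N q h i)) + φ (Additive.ofMul g) -
        φ (Additive.ofMul (degRep N q h (σ i))) := by
    intro i
    show φ (Additive.ofMul (degRep N q h i * g * (degRep N q h (σ i))⁻¹)) = _
    rw [ofMul_mul, ofMul_mul, map_add, map_add, ofMul_inv, map_neg, sub_eq_add_neg]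
  simp only [e, Finset.sum_sub_distrib, Finset.sum_add_distrib,
    Equiv.sum_comp σ (fun i => φ (Additive.ofMul (degRep N q h i))), add_sub_cancel_left,
    Finset.sum_const, Finset.card_univ, Fintype.card_option, Fintype.card_fin]
  show (q + 1) • φ (Additive.ofMul g) = ((q : ℤ) + 1) • φ (Additive.ofMul g)
  rw [← natCast_zsmul]; push_cast; ring_nf

/-- `[[q x, y], [N, 1]]` in `SL(2, ℤ)`. -/
def sideAuxSL (h : q.Coprime N) : SL(2, ℤ) :=
  ⟨!![(q : ℤ) * q.gcdA N, -q.gcdB N; (N : ℤ), 1], by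
      have e : ((q.gcd N : ℕ) : ℤ) = q * q.gcdA N + N * q.gcdB N := Nat.gcd_eq_gcd_ab q N
      rw [h.gcd_eq_one] at e
      rw [Matrix.det_fin_two_of]; push_cast at e; linarith⟩

omit [NeZero N] [NeZero q] in
theorem sideAuxSL_mem (h : q.Coprime N) : sideAuxSL N q h ∈ Gamma0 N := by
  rw [Gamma0_mem]
  show (((N : ℤ)) : ZMod N) = 0
  simp

/-- `[[q x, y], [N, 1]]`. -/
def sideAux (h : q.Coprime N) : Gamma0 N := ⟨sideAuxSL N q h, sideAuxSL_mem N q h⟩

omit [NeZero N] [NeZero q] in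
theorem coe_sideAux (h : q.Coprime N) :
    ((sideAux N q h : SL(2, ℤ)) : M₂) = !![(q : ℤ) * q.gcdA N, -q.gcdB N; (N : ℤ), 1] := rfl

theorem cor_res₂ [Fact q.Prime] (hqN : ¬ q ∣ N) {R : Type*} [Semiring R] [Module R A]
    (φ : Hom1 N A) : cor N q (res₂ N q φ) = HK.heckeHom N q R A φ := by
  have hq : q.Prime := Fact.out
  have h : q.Coprime N := hq.coprime_iff_not_dvd.mpr hqN
  refine AddMonoidHom.ext fun g => ?_
  obtain ⟨g, rfl⟩ := Additive.ofMul.surjective g
  have hb := degRep_bijective N q hq h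
  let σ := HK.repPerm _ hb g
  rw [cor_apply_reps N q _ hb _ g σ (HK.repPerm_mem _ hb g)]
  let π : Option (Fin q) ≃ HK.HeckeIdx N q :=
    (Equiv.subtypeUnivEquiv fun o => fun h' => absurd h' hqN).symm
  let u : Option (Fin q) → Gamma0 N := fun o => o.elim 1 fun _ => sideAux N q h
  have hu : ∀ i, ((u i : SL(2, ℤ)) : M₂) * HK.heckeMat (π i) =
      diagMat q * ((degRep N q h i : SL(2, ℤ)) : M₂) := by
    rintro (_ | j)
    · show ((1 : SL(2, ℤ)) : M₂) * !![(q : ℤ), 0; 0, 1] = diagMat q * ((1 : SL(2, ℤ)) : M₂)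
      simp [diagMat]
    · show ((sideAux N q h : SL(2, ℤ)) : M₂) * !![1, (j : ℤ); 0, (q : ℤ)] =
        diagMat q * (((atkinAux N q h * transl N (j : ℤ) : Gamma0 N) : SL(2, ℤ)) : M₂)
      rw [Subgroup.coe_mul, Matrix.SpecialLinearGroup.coe_mul, coe_sideAux, coe_atkinAux, coe_transl]
      ext a b
      fin_cases a <;> fin_cases b <;> simp [diagMat, Matrix.mul_apply, Fin.sum_univ_two] <;> ring
  rw [HK.heckeHom_apply_eq_of_reps π u φ g σ
    (fun i => deltaGamma0 N q (⟨((degRep N q h i * g * (degRep N q h (σ i))⁻¹ : Gamma0 N) :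
      SL(2, ℤ)), HK.repPerm_mem _ hb g i⟩ : Gamma0 (N * q))) (fun i => ?_)]
  · rfl
  rw [hu, hu, ← Matrix.mul_assoc, deltaGamma0_mul_diagMat, Matrix.mul_assoc, Matrix.mul_assoc]
  congr 1
  show (((degRep N q h i * g * (degRep N q h (σ i))⁻¹ : Gamma0 N) : SL(2, ℤ)) : M₂) *
    ((degRep N q h (σ i) : SL(2, ℤ)) : M₂) = _
  rw [← Matrix.SpecialLinearGroup.coe_mul, ← Matrix.SpecialLinearGroup.coe_mul]
  simp [Subgroup.coe_mul]

omit [NeZero N] [NeZero q] in
theorem atkinGamma0_mul (h : q.Coprime N) (γ : Gamma0 (N * q)) :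
    ((atkinGamma0 N q h γ : SL(2, ℤ)) : M₂) * (((atkinAux N q h : SL(2, ℤ)) : M₂) * diagMat q) =
      ((atkinAux N q h : SL(2, ℤ)) : M₂) * diagMat q * ((γ : SL(2, ℤ)) : M₂) := by
  rw [Matrix.mul_assoc, ← deltaGamma0_mul_diagMat, ← Matrix.mul_assoc, atkinGamma0_coe,
    ← Matrix.SpecialLinearGroup.coe_mul, inv_mul_cancel_right, Matrix.SpecialLinearGroup.coe_mul,
    Matrix.mul_assoc]

omit [NeZero N] [NeZero q] in
theorem atkinSq_mem (h : q.Coprime N) :
    ((atkinAux N q h * sideAux N q h : Gamma0 N) : SL(2, ℤ)) ∈ Gamma0 (N * q) := by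
  rw [Gamma0_mem, ZMod.intCast_zmod_eq_zero_iff_dvd, Subgroup.coe_mul,
    Matrix.SpecialLinearGroup.coe_mul, coe_atkinAux, coe_sideAux]
  refine ⟨q.gcdA N + 1, ?_⟩
  simp [Matrix.mul_apply, Fin.sum_univ_two]
  ring

theorem atkin_atkin (h : q.Coprime N) (φ : Hom1 (N * q) A) :
    atkin N q h (atkin N q h φ) = φ := by
  refine AddMonoidHom.ext fun γ => ?_
  obtain ⟨γ, rfl⟩ := Additive.ofMul.surjective γ
  let E : Gamma0 (N * q) := ⟨_, atkinSq_mem N q h⟩
  have hq0 : q ≠ 0 := NeZero.ne q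
  set a := ((atkinAux N q h : SL(2, ℤ)) : M₂) with ha
  set W := a * diagMat q with hW
  have hWW : W * W = ((q : ℤ) • ((E : SL(2, ℤ)) : M₂)) := by
    show W * W = (q : ℤ) • (((atkinAux N q h : SL(2, ℤ)) * (sideAux N q h : SL(2, ℤ)) : SL(2, ℤ)) : M₂)
    rw [hW, ha, Matrix.SpecialLinearGroup.coe_mul, coe_atkinAux, coe_sideAux]
    ext i j
    fin_cases i <;> fin_cases j <;> simp [diagMat, Matrix.mul_apply, Fin.sum_univ_two] <;> ring
  have e1 := atkinGamma0_mul N q h γ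
  have e2 := atkinGamma0_mul N q h (atkinGamma0 N q h γ)
  rw [← ha, ← hW] at e1 e2
  have e3 : ((atkinGamma0 N q h (atkinGamma0 N q h γ) : SL(2, ℤ)) : M₂) * (W * W) =
      W * W * ((γ : SL(2, ℤ)) : M₂) := by
    rw [← Matrix.mul_assoc, e2, Matrix.mul_assoc, e1, ← Matrix.mul_assoc]
  rw [hWW, Matrix.mul_smul, Matrix.smul_mul] at e3
  have e4 : atkinGamma0 N q h (atkinGamma0 N q h γ) * E = E * γ := by
    apply Subtype.ext; apply Subtype.ext
    show ((atkinGamma0 N q h (atkinGamma0 N q h γ) : SL(2, ℤ)) : M₂) * ((E : SL(2, ℤ)) : M₂) =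
      ((E : SL(2, ℤ)) : M₂) * ((γ : SL(2, ℤ)) : M₂)
    exact smul_right_injective _ (by exact_mod_cast hq0 : (q : ℤ) ≠ 0) e3
  show φ (Additive.ofMul (atkinGamma0 N q h (atkinGamma0 N q h γ))) = φ (Additive.ofMul γ)
  have := congrArg (fun x => φ (Additive.ofMul x)) e4
  simp only [ofMul_mul, map_add] at this
  rw [add_comm (φ (Additive.ofMul E))] at this
  exact add_right_cancel this

theorem atkin_res₂ (h : q.Coprime N) (φ : Hom1 N A) :
    atkin N q h (res₂ N q φ) = res N q φ := by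
  rw [← atkin_res N q h, atkin_atkin]

theorem res_cor [Fact q.Prime] (h : q.Coprime N) {R : Type*} [Semiring R] [Module R A]
    (φ : Hom1 (N * q) A) :
    res N q (cor N q φ) = φ + HK.heckeHom (N * q) q R A (atkin N q h φ) := by
  have hq : q.Prime := Fact.out
  refine AddMonoidHom.ext fun γ => ?_
  obtain ⟨γ, rfl⟩ := Additive.ofMul.surjective γ
  have hb := degRep_bijective N q hq h
  have hs : ∀ i : HK.HeckeIdx (N * q) q, i.1.isSome := fun i => i.2 (dvd_mul_left q N)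
  let π : HK.HeckeIdx (N * q) q ≃ Fin q :=
    { toFun := fun i => i.1.get (hs i)
      invFun := fun j => HK.HeckeIdx.upper (N * q) j
      left_inv := fun i => Subtype.ext (Option.some_get _)
      right_inv := fun j => rfl }
  let τ : Option (Fin q) → Option (Fin q) :=
    Option.map fun j => π (HK.heckeNext γ (π.symm j))
  have key : ∀ j : Fin q, degRep N q h (some j) * inclGamma0 N q γ =
      inclGamma0 N q (atkinGamma0 N q h (HK.heckeCoc γ (π.symm j))) *
        degRep N q h (τ (some j)) := by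
    intro j
    have e := HK.heckeCoc_mul_heckeMat γ (π.symm j)
    set j' := π (HK.heckeNext γ (π.symm j)) with hj'
    have e' : HK.heckeNext γ (π.symm j) = π.symm j' := (π.symm_apply_apply _).symm
    rw [e', show HK.heckeMat (π.symm j') = !![1, ((j' : ℕ) : ℤ); 0, (q : ℤ)] from rfl,
      show HK.heckeMat (π.symm j) = !![1, ((j : ℕ) : ℤ); 0, (q : ℤ)] from rfl] at e
    set c := HK.heckeCoc γ (π.symm j)
    apply Subtype.ext; apply Subtype.ext
    show ((atkinAux N q h : SL(2, ℤ)) : M₂) * ((transl N (j : ℤ) : SL(2, ℤ)) : M₂) *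
        ((γ : SL(2, ℤ)) : M₂) =
      ((atkinGamma0 N q h c : SL(2, ℤ)) : M₂) *
        (((atkinAux N q h : SL(2, ℤ)) : M₂) * ((transl N (j' : ℤ) : SL(2, ℤ)) : M₂))
    have hdiag : ∀ k : ℤ, diagMat q * !![1, k; 0, (q : ℤ)] =
        (q : ℤ) • ((transl N k : SL(2, ℤ)) : M₂) := by
      intro k
      rw [coe_transl]
      ext a b
      fin_cases a <;> fin_cases b <;> simp [diagMat, Matrix.mul_apply, Fin.sum_univ_two]
    refine smul_right_injective _ (by exact_mod_cast NeZero.ne q : (q : ℤ) ≠ 0) ?_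
    show (q : ℤ) • _ = (q : ℤ) • _
    set a := ((atkinAux N q h : SL(2, ℤ)) : M₂)
    calc (q : ℤ) • (a * ((transl N (j : ℤ) : SL(2, ℤ)) : M₂) * ((γ : SL(2, ℤ)) : M₂))
        = a * ((q : ℤ) • ((transl N (j : ℤ) : SL(2, ℤ)) : M₂)) * ((γ : SL(2, ℤ)) : M₂) := by
          rw [Matrix.mul_smul, Matrix.smul_mul]
      _ = a * diagMat q * (!![1, ((j : ℕ) : ℤ); 0, (q : ℤ)] * ((γ : SL(2, ℤ)) : M₂)) := by
          rw [← hdiag]; simp only [Matrix.mul_assoc]
      _ = a * diagMat q * ((c : SL(2, ℤ)) : M₂) * !![1, ((j' : ℕ) : ℤ); 0, (q : ℤ)] := by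
          rw [← e, ← Matrix.mul_assoc]
      _ = ((atkinGamma0 N q h c : SL(2, ℤ)) : M₂) *
            (a * (diagMat q * !![1, ((j' : ℕ) : ℤ); 0, (q : ℤ)])) := by
          rw [← atkinGamma0_mul]; simp only [Matrix.mul_assoc]; rfl
      _ = _ := by rw [hdiag, Matrix.mul_smul, Matrix.mul_smul]
  have hmem : ∀ i, degRep N q h i * inclGamma0 N q γ * (degRep N q h (τ i))⁻¹ ∈ levelSub N q := by
    rintro (_ | j)
    · simp only [degRep, τ, Option.map_none, one_mul, inv_one, mul_one]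
      exact γ.2
    · rw [key j, mul_inv_cancel_right]
      exact (atkinGamma0 N q h (HK.heckeCoc γ (π.symm j))).2
  rw [res_apply, cor_apply_reps N q _ hb φ (inclGamma0 N q γ) τ hmem, Fintype.sum_option,
    AddMonoidHom.add_apply]
  congr 1
  · refine congrArg φ (congrArg Additive.ofMul (Subtype.ext ?_))
    simp [degRep, τ, inclGamma0, Subgroup.inclusion]
  · rw [HK.heckeHom_apply, ← π.symm.sum_comp]
    refine Finset.sum_congr rfl fun j _ => congrArg φ (congrArg Additive.ofMul (Subtype.ext ?_))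
    show ((degRep N q h (some j) * inclGamma0 N q γ * (degRep N q h (τ (some j)))⁻¹ : Gamma0 N) :
      SL(2, ℤ)) = _
    rw [key j, mul_inv_cancel_right]
    rfl

end Identities

section Commute

variable (N q : ℕ) {ℓ : ℕ} [Fact ℓ.Prime] {R : Type*} [Semiring R] [Module R A]

theorem heckeHom_res (hℓ : ℓ.Coprime q) (φ : Hom1 N A) :
    HK.heckeHom (N * q) ℓ R A (res N q φ) = res N q (HK.heckeHom N ℓ R A φ) := by
  refine AddMonoidHom.ext fun γ => ?_
  obtain ⟨γ, rfl⟩ := Additive.ofMul.surjective γ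
  have hp : ℓ.Prime := Fact.out
  have hiff : ℓ ∣ N * q ↔ ℓ ∣ N :=
    ⟨fun h => hℓ.dvd_of_dvd_mul_right h, fun h => h.mul_right q⟩
  let π : HK.HeckeIdx (N * q) ℓ ≃ HK.HeckeIdx N ℓ :=
    Equiv.subtypeEquivRight fun o => by rw [hiff]
  rw [res_apply, HK.heckeHom_apply_eq_of_reps π (fun _ => 1) φ (inclGamma0 N q γ) (HK.heckeNext γ)
    (fun i => inclGamma0 N q (HK.heckeCoc γ i)) (fun i => ?_), HK.heckeHom_apply]
  · rfl
  · have e := HK.heckeCoc_mul_heckeMat γ i
    simp only [OneMemClass.coe_one, Matrix.SpecialLinearGroup.coe_one, Matrix.one_mul]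
    exact e

theorem heckeHom_res₂ [NeZero q] (hℓ : ℓ.Coprime q) (φ : Hom1 N A) :
    HK.heckeHom (N * q) ℓ R A (res₂ N q φ) = res₂ N q (HK.heckeHom N ℓ R A φ) := by
  refine AddMonoidHom.ext fun γ => ?_
  obtain ⟨γ, rfl⟩ := Additive.ofMul.surjective γ
  have hp : ℓ.Prime := Fact.out
  have hiff : ℓ ∣ N * q ↔ ℓ ∣ N :=
    ⟨fun h => hℓ.dvd_of_dvd_mul_right h, fun h => h.mul_right q⟩
  let qu : (ZMod ℓ)ˣ := ZMod.unitOfCoprime q hℓ.symm
  let e₀ : Fin ℓ ≃ ZMod ℓ :=
    { toFun := fun j => (j : ℕ)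
      invFun := fun x => ⟨x.val, x.val_lt⟩
      left_inv := fun j => Fin.ext (ZMod.val_cast_of_lt j.isLt)
      right_inv := fun x => ZMod.natCast_zmod_val x }
  let m : Fin ℓ ≃ Fin ℓ := e₀.trans ((Equiv.mulLeft₀ (qu : ZMod ℓ) qu.ne_zero).trans e₀.symm)
  let π : HK.HeckeIdx (N * q) ℓ ≃ HK.HeckeIdx N ℓ :=
    (Equiv.optionCongr m).subtypeEquiv fun o => by
      rw [hiff]; cases o <;> simp
  have hj : ∀ j : Fin ℓ, (ℓ : ℤ) ∣ (q : ℤ) * j - (m j : ℕ) := by
    intro j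
    rw [← ZMod.intCast_zmod_eq_zero_iff_dvd]
    push_cast
    show (q : ZMod ℓ) * (j : ℕ) - ((((qu : ZMod ℓ) * (j : ℕ))).val : ZMod ℓ) = 0
    rw [ZMod.natCast_zmod_val, ZMod.coe_unitOfCoprime, sub_self]
  let u : HK.HeckeIdx (N * q) ℓ → Gamma0 N := fun i =>
    i.1.elim 1 fun j => transl N (((q : ℤ) * j - (m j : ℕ)) / ℓ)
  have hu : ∀ i, (((u i : SL(2, ℤ)) : M₂) * HK.heckeMat (π i)) * diagMat q =
      diagMat q * HK.heckeMat i := by
    intro i
    induction i using HK.HeckeIdx.cases_upper_diag with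
    | h1 j =>
      show ((transl N _ : SL(2, ℤ)) : M₂) * !![1, ((m j : ℕ) : ℤ); 0, (ℓ : ℤ)] * diagMat q = _
      rw [coe_transl, HK.heckeMat_upper]
      have := Int.ediv_mul_cancel (hj j)
      ext a b
      fin_cases a <;> fin_cases b <;> simp [diagMat, Matrix.mul_apply, Fin.sum_univ_two]
      linear_combination this
    | h2 h =>
      show ((1 : SL(2, ℤ)) : M₂) * !![(ℓ : ℤ), 0; 0, 1] * diagMat q = _
      rw [Matrix.SpecialLinearGroup.coe_one, HK.heckeMat_diag]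
      ext a b
      fin_cases a <;> fin_cases b <;> simp [diagMat, Matrix.mul_apply, Fin.sum_univ_two]
      ring
  rw [res₂_apply, HK.heckeHom_apply_eq_of_reps π u φ (deltaGamma0 N q γ) (HK.heckeNext γ)
    (fun i => deltaGamma0 N q (HK.heckeCoc γ i)) (fun i => ?_), HK.heckeHom_apply]
  · rfl
  · apply diagMat_cancel (NeZero.ne q)
    rw [Matrix.mul_assoc, hu, Matrix.mul_assoc _ _ (diagMat q), deltaGamma0_mul_diagMat,
      ← Matrix.mul_assoc, ← Matrix.mul_assoc, hu, deltaGamma0_mul_diagMat, Matrix.mul_assoc,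
      Matrix.mul_assoc, HK.heckeCoc_mul_heckeMat]

end Commute

end Fermat.Agent.LR

end
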