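/-
Irreducibility of `E[p]` excludes the Eisenstein congruence `a_ℓ ≡ ℓ + 1` (owner: helper61).
-/
import Fermat.Agent.LR.ChangeVar
import Fermat.Agent.ECFrob.Main
import Fermat.Agent.Density.Qbar
import Fermat.Agent.ECTorsion.Galois

set_option autoImplicit false

noncomputable section

namespace Fermat.Agent.LR

open WeierstrassCurve WeierstrassCurve.Affine WeierstrassCurve.Affine.Point
open scoped WeierstrassCurve.Affine

section Plane

variable {k : Type*} [Field k] {V : Type*} [AddCommGroup V] [Module k V]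

/-- An endomorphism of a plane with `1 - tr + det = 0` fixes a nonzero vector. -/
theorem exists_fixed_of_trace_det (hV : Module.finrank k V = 2) (f : Module.End k V)
    (h : LinearMap.trace k V f = LinearMap.det f + 1) : ∃ v : V, v ≠ 0 ∧ f v = v := by
  classical
  have : FiniteDimensional k V := FiniteDimensional.of_finrank_pos (by omega)
  let b := Module.finBasisOfFinrankEq k V hV
  have h0 : LinearMap.det (f - 1) = 0 := by
    rw [← LinearMap.det_toMatrix b, map_sub, LinearMap.toMatrix_one, Matrix.det_fin_two]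
    have ht : LinearMap.trace k V f = (LinearMap.toMatrix b b f).trace :=
      LinearMap.trace_eq_matrix_trace k b f
    rw [ht, ← LinearMap.det_toMatrix b f, Matrix.trace_fin_two, Matrix.det_fin_two] at h
    simp [Matrix.sub_apply]
    linear_combination -h
  have hker : LinearMap.ker (f - 1) ≠ ⊥ :=
    (LinearMap.bot_lt_ker_of_det_eq_zero h0).ne'
  obtain ⟨v, hv, hv0⟩ := (Submodule.ne_bot_iff _).mp hker
  exact ⟨v, hv0, by simpa [sub_eq_zero] using hv⟩

/-- If every element of a group of automorphisms of a plane fixes a nonzero vector,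
there is an invariant line. -/
theorem exists_stable_of_forall_fixed {G : Type*} [Group G] (hV : Module.finrank k V = 2)
    (ρ : G →* Module.End k V) (hρ : ∀ g, ∃ v : V, v ≠ 0 ∧ ρ g v = v) :
    ∃ L : Submodule k V, L ≠ ⊥ ∧ L ≠ ⊤ ∧ ∀ g, ∀ x ∈ L, ρ g x ∈ L := by
  classical
  have : FiniteDimensional k V := FiniteDimensional.of_finrank_pos (by omega)
  have hne : ∀ v : V, v ≠ 0 → Submodule.span k {v} ≠ ⊤ ∧ Submodule.span k {v} ≠ ⊥ := by
    intro v hv
    refine ⟨fun ht => ?_, by simpa using hv⟩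
    have := finrank_span_singleton (K := k) hv
    rw [ht, finrank_top, hV] at this
    omega
  have hinv : ∀ g : G, ∀ x : V, ρ g⁻¹ (ρ g x) = x := fun g x => by
    rw [← Module.End.mul_apply, ← map_mul, inv_mul_cancel, map_one]; rfl
  -- the fixed space of a nontrivial element
  have fix_line : ∀ g : G, ρ g ≠ 1 → ∀ v : V, v ≠ 0 → ρ g v = v →
      ∀ x : V, ρ g x = x → x ∈ Submodule.span k {v} := by
    intro g hg v hv hgv x hx
    by_contra hxv
    apply hg
    have hli : LinearIndependent k ![v, x] := by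
      rw [LinearIndependent.pair_iff' hv]
      intro a ha
      exact hxv (Submodule.mem_span_singleton.mpr ⟨a, ha⟩)
    refine (basisOfLinearIndependentOfCardEqFinrank hli (by simp [hV])).ext fun i => ?_
    fin_cases i <;> simp [hgv, hx]
  by_cases hall : ∃ g, LinearMap.det (ρ g) = 1 ∧ ρ g ≠ 1
  · obtain ⟨g₀, hd₀, hg₀⟩ := hall
    obtain ⟨v, hv, hgv⟩ := hρ g₀
    refine ⟨Submodule.span k {v}, (hne v hv).2, (hne v hv).1, ?_⟩
    have hfixv : ∀ h, LinearMap.det (ρ h) = 1 → ρ h v = v := by
      intro h hd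
      obtain ⟨w, hw, hhw⟩ := hρ h
      by_cases hwv : w ∈ Submodule.span k {v}
      · obtain ⟨a, rfl⟩ := Submodule.mem_span_singleton.mp hwv
        have ha : a ≠ 0 := by rintro rfl; simp at hw
        rw [map_smul] at hhw
        exact smul_right_injective V ha hhw
      · have hli : LinearIndependent k ![v, w] := by
          rw [LinearIndependent.pair_iff' hv]
          intro a ha
          exact hwv (Submodule.mem_span_singleton.mpr ⟨a, ha⟩)
        let b := basisOfLinearIndependentOfCardEqFinrank hli (by simp [hV])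
        have hb0 : b 0 = v := by simp [b]
        have hb1 : b 1 = w := by simp [b]
        set P := LinearMap.toMatrix b b (ρ g₀) with hP
        set Q := LinearMap.toMatrix b b (ρ h) with hQ
        have p00 : P 0 0 = 1 := by rw [hP, LinearMap.toMatrix_apply, hb0, hgv, ← hb0]; simp
        have p10 : P 1 0 = 0 := by rw [hP, LinearMap.toMatrix_apply, hb0, hgv, ← hb0]; simp
        have q01 : Q 0 1 = 0 := by rw [hQ, LinearMap.toMatrix_apply, hb1, hhw, ← hb1]; simp
        have q11 : Q 1 1 = 1 := by rw [hQ, LinearMap.toMatrix_apply, hb1, hhw, ← hb1]; simp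
        have dP : P.det = 1 := by rw [hP, LinearMap.det_toMatrix, hd₀]
        have dQ : Q.det = 1 := by rw [hQ, LinearMap.det_toMatrix, hd]
        rw [Matrix.det_fin_two, p00, p10, mul_zero, sub_zero, one_mul] at dP
        rw [Matrix.det_fin_two, q01, q11, zero_mul, sub_zero, mul_one] at dQ
        obtain ⟨u, hu, hmu⟩ := hρ (g₀ * h)
        have h0 : (P * Q - 1).det = 0 := by
          have e : LinearMap.toMatrix b b (ρ (g₀ * h) - 1) = P * Q - 1 := by
            rw [map_sub, map_mul, LinearMap.toMatrix_one, LinearMap.toMatrix_mul]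
          rw [← e, LinearMap.det_toMatrix]
          by_contra hne0
          have hinj : Function.Injective (ρ (g₀ * h) - 1 : Module.End k V) :=
            ((Module.End.isUnit_iff _).mp ((LinearMap.isUnit_iff_isUnit_det _).mpr (Ne.isUnit hne0))).1
          exact hu (hinj (by rw [LinearMap.sub_apply, hmu, Module.End.one_apply, sub_self, _root_.map_zero]))
        simp only [Matrix.det_fin_two, Matrix.sub_apply, Matrix.mul_apply, Fin.sum_univ_two,
          p00, p10, dP, dQ, q01, q11] at h0
        simp at h0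
        rcases h0 with h0 | h0
        · exfalso
          apply hg₀
          apply (LinearMap.toMatrix b b).injective
          rw [LinearMap.toMatrix_one]
          ext i j
          fin_cases i <;> fin_cases j <;> simp [← hP, p00, p10, dP, h0]
        · apply b.repr.injective
          refine Finsupp.ext fun i => ?_
          have e0 : Q 0 0 = (b.repr (ρ h v)) 0 := by rw [hQ, LinearMap.toMatrix_apply, hb0]
          have e1 : Q 1 0 = (b.repr (ρ h v)) 1 := by rw [hQ, LinearMap.toMatrix_apply, hb0]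
          conv_rhs => rw [← hb0, Module.Basis.repr_self]
          fin_cases i <;> simp [← e0, ← e1, dQ, h0]
    intro g x hx
    obtain ⟨a, rfl⟩ := Submodule.mem_span_singleton.mp hx
    rw [map_smul]
    refine Submodule.smul_mem _ _ (fix_line g₀ hg₀ v hv hgv _ ?_)
    have hdc : LinearMap.det (ρ (g⁻¹ * g₀ * g)) = 1 := by
      rw [map_mul, map_mul, map_mul, map_mul, hd₀, mul_one, ← map_mul LinearMap.det, ← map_mul,
        inv_mul_cancel, map_one, map_one]
    have hfv := hfixv _ hdc
    rw [map_mul, map_mul, Module.End.mul_apply, Module.End.mul_apply] at hfv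
    have := congrArg (ρ g) hfv
    rwa [← Module.End.mul_apply (ρ g) (ρ g⁻¹), ← map_mul, mul_inv_cancel, map_one,
      Module.End.one_apply] at this
  · push Not at hall
    by_cases h1 : ∃ g, ρ g ≠ 1
    · obtain ⟨g₀, hg₀⟩ := h1
      obtain ⟨v, hv, hgv⟩ := hρ g₀
      refine ⟨Submodule.span k {v}, (hne v hv).2, (hne v hv).1, ?_⟩
      intro g x hx
      obtain ⟨a, rfl⟩ := Submodule.mem_span_singleton.mp hx
      rw [map_smul]
      refine Submodule.smul_mem _ _ (fix_line g₀ hg₀ v hv hgv _ ?_)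
      have hd : LinearMap.det (ρ (g⁻¹ * g₀⁻¹ * g * g₀)) = 1 := by
        have e1 : LinearMap.det (ρ g⁻¹) * LinearMap.det (ρ g) = 1 := by
          rw [← map_mul, ← map_mul, inv_mul_cancel, map_one, map_one]
        have e2 : LinearMap.det (ρ g₀⁻¹) * LinearMap.det (ρ g₀) = 1 := by
          rw [← map_mul, ← map_mul, inv_mul_cancel, map_one, map_one]
        simp only [map_mul]
        linear_combination (LinearMap.det (ρ g₀⁻¹) * LinearMap.det (ρ g₀)) * e1 + e2
      have hc : ρ (g * g₀) = ρ (g₀ * g) := by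
        have := hall _ hd
        calc ρ (g * g₀) = ρ (g₀ * g) * ρ (g⁻¹ * g₀⁻¹ * g * g₀) := by rw [← map_mul]; group
          _ = ρ (g₀ * g) := by rw [this, mul_one]
      have := congrArg (fun φ : Module.End k V => φ v) hc
      simp only [map_mul, Module.End.mul_apply, hgv] at this
      exact this.symm
    · push Not at h1
      obtain ⟨v, hv, -⟩ := hρ 1
      exact ⟨Submodule.span k {v}, (hne v hv).2, (hne v hv).1,
        fun g x hx => by rw [h1 g]; exact hx⟩

theorem fixed_pow {G : Type*} [Monoid G] (ρ : G →* Module.End k V) (g : G) (v : V)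
    (h : ρ g v = v) (n : ℕ) : ρ (g ^ n) v = v := by
  induction n with
  | zero => rw [pow_zero, map_one]; rfl
  | succ n ih => rw [pow_succ, map_mul, Module.End.mul_apply, h, ih]

end Plane

/-- Irreducibility of `E[p]` gives good primes with `a_ℓ ≢ ℓ + 1 (mod p)`. -/
theorem exists_prime_apOfModel_ne (E : WeierstrassCurve ℚ) [E.IsElliptic] {W : WeierstrassCurve ℤ}
    (hW : W.IsIntegralModelOf E) {p : ℕ} (hp : p.Prime)
    (hirr : GaloisRepIsIrreducible (K := AlgebraicClosure ℚ) ℚ E p) (S : Finset ℕ) :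
    ∃ ℓ : ℕ, ℓ.Prime ∧ ℓ ∉ S ∧ W.IsGoodPrimeFor ℓ ∧ ℓ ≠ p ∧
      (W.apOfModel ℓ : ZMod p) ≠ (ℓ : ZMod p) + 1 := by
  classical
  have : Fact p.Prime := ⟨hp⟩
  by_contra hcon
  push Not at hcon
  obtain ⟨C, hC⟩ := hW
  set W₀ : WeierstrassCurve ℚ := W.map (Int.castRingHom ℚ) with hW₀
  have hΔ : W₀.Δ ≠ 0 := by
    rw [← hC, variableChange_Δ]
    exact mul_ne_zero (pow_ne_zero _ C.u⁻¹.ne_zero) E.isUnit_Δ.ne_zero
  have hΔZ : W.Δ ≠ 0 := fun h => hΔ (by rw [hW₀, map_Δ, h, _root_.map_zero])
  let M := Submodule.torsionBy ℤ (W₀.toAffine⁄(AlgebraicClosure ℚ)).Point p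
  have hrank : Module.finrank (ZMod p) M = 2 := ECTorsion.finrank_torsionBy_qbar W₀ hΔ p
  obtain ⟨L, hLfin, hL⟩ :=
    ECTorsion.galoisFactorsThroughFiniteLevel_galoisRepModuleEnd W₀ hΔ hp.ne_zero
  let ρ := galoisRepModuleEnd (K := AlgebraicClosure ℚ) ℚ W₀.toAffine p
  have hall : ∀ g, ∃ v : M, v ≠ 0 ∧ ρ g v = v := by
    refine fun g => Density.forall_of_forall_frobenius_pow
      (P := fun g => ∃ v : M, v ≠ 0 ∧ ρ g v = v) L ?_ (insert p (S ∪ W.Δ.natAbs.primeFactors)) ?_ g
    · rintro g h hgh ⟨v, hv, hgv⟩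
      refine ⟨v, hv, ?_⟩
      have e : ρ (g⁻¹ * h) = 1 := hL _ fun x hx => by
        show g⁻¹ (h x) = x
        rw [← hgh x hx]
        exact g.symm_apply_apply x
      have : ρ h = ρ g := by
        calc ρ h = ρ (g * (g⁻¹ * h)) := congrArg ρ (mul_inv_cancel_left g h).symm
          _ = ρ g * ρ (g⁻¹ * h) := map_mul ρ g _
          _ = ρ g := by rw [e, mul_one]
      rw [this, hgv]
    · intro ℓ hℓ hℓS A hA σ hσ k
      rw [Finset.mem_insert, Finset.mem_union, not_or, not_or] at hℓS
      have hgood : W.IsGoodPrimeFor ℓ := fun hd => hℓS.2.2 (Nat.mem_primeFactors.mpr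
        ⟨hℓ, Int.natCast_dvd.mp hd, Int.natAbs_ne_zero.mpr hΔZ⟩)
      have ht := ECFrob.galoisTrace_eq_apOfModel W hℓ hp hℓS.1 hgood A hA σ hσ
      have hd := ECFrob.galoisDet_eq_natCast W hℓ hp hℓS.1 hgood A hA σ hσ
      rw [hcon ℓ hℓ hℓS.2.1 hgood hℓS.1, ← hd] at ht
      obtain ⟨v, hv, hσv⟩ := exists_fixed_of_trace_det hrank (ρ σ) ht
      exact ⟨v, hv, fixed_pow ρ σ v hσv k⟩
  obtain ⟨N, hbot, htop, hN⟩ := exists_stable_of_forall_fixed hrank ρ hall
  revert hN hbot htop
  revert N
  show ∀ N : Submodule (ZMod p) (Submodule.torsionBy ℤ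
      (W₀.toAffine⁄(AlgebraicClosure ℚ)).Point p), _
  intro N hbot htop hN
  have key : ∀ V : WeierstrassCurve ℚ, V = C • E → ∀ N : Submodule (ZMod p) (Submodule.torsionBy ℤ
      (V.toAffine⁄(AlgebraicClosure ℚ)).Point p), IsGaloisStable ℚ N → N = ⊥ ∨ N = ⊤ := by
    rintro V rfl N hN
    exact stable_eq_bot_or_top_of_irreducible E C hirr N hN
  rcases key W₀ hC.symm N (fun σ x hx => hN σ x hx) with h | h
  · exact hbot h
  · exact htop h

end Fermat.Agent.LR

end
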