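/-
Degeneracy maps and the pairing on `HSpace N ℤ` (owner: helper61).
-/
import Fermat.Agent.LR.Operators
import Fermat.Agent.LR.Pairing.Gamma0
import Fermat.Agent.HK.TRep

set_option autoImplicit false

noncomputable section

namespace Fermat.Agent.LR

open CongruenceSubgroup ModularCurve.Period
open scoped MatrixGroups

/-- The lattice `Hom_par(Γ₀(N), ℤ)`. -/
abbrev Lat (N : ℕ) [NeZero N] := HK.HSpace N ℤ

/-- The Hecke algebra acts faithfully on the lattice. -/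
theorem heckeAct_injective (N : ℕ) [NeZero N] : Function.Injective (HK.heckeAct N ℤ) := by
  intro s t h
  refine HK.heckeRep_injective N ?_
  have := congrArg (HK.hMatrix N ℤ) h
  rw [HK.hMatrix_heckeAct, HK.hMatrix_heckeAct] at this
  exact Matrix.map_injective (Int.castRingHom ℤ).injective_int this

theorem heckeAct_T {N ℓ : ℕ} [NeZero N] [Fact ℓ.Prime] (hℓN : ¬ ℓ ∣ N) :
    HK.heckeAct N ℤ (CuspForm.heckeAlgebra.T (Fact.out : ℓ.Prime) hℓN (Set.notMem_empty ℓ)) =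
      HK.heckeEnd N ℓ ℤ := by
  have h := HK.heckeAct_heckeFormsGen N ℤ ⟨ℓ, Fact.out⟩
  rwa [CuspForm.heckeFormsGen_of_not_dvd (ℓ := ⟨ℓ, Fact.out⟩) hℓN] at h

theorem heckeAct_U {N q : ℕ} [NeZero N] [Fact q.Prime] (hqN : q ∣ N) :
    HK.heckeAct N ℤ (CuspForm.heckeAlgebra.U (Fact.out : q.Prime) hqN (Set.notMem_empty q)) =
      HK.heckeEnd N q ℤ := by
  have h := HK.heckeAct_heckeFormsGen N ℤ ⟨q, Fact.out⟩
  rwa [CuspForm.heckeFormsGen_of_dvd (q := ⟨q, Fact.out⟩) hqN] at h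

theorem hom_zsmul {N : ℕ} [NeZero N] (n : ℤ) (a : Lat N) : (n • a).hom = n • a.hom :=
  map_zsmul (HK.HSpace.homLin N ℤ) n a

section Maps

variable (N q : ℕ) [NeZero N] [NeZero q]

/-- `res` on the lattice. -/
def resL : Lat N →ₗ[ℤ] Lat (N * q) :=
  (HK.HSpace.toParHom (N * q) ℤ).symm.toLinearMap.comp
    ((res N q).restrict (p := parabolicHoms ℤ (Gamma0 N) ℤ)
      (q := parabolicHoms ℤ (Gamma0 (N * q)) ℤ) (fun _ h => res_isParabolicHom N q h) |>.comp
      (HK.HSpace.toParHom N ℤ).toLinearMap)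

/-- `res₂` on the lattice. -/
def res₂L : Lat N →ₗ[ℤ] Lat (N * q) :=
  (HK.HSpace.toParHom (N * q) ℤ).symm.toLinearMap.comp
    ((res₂ N q).restrict (p := parabolicHoms ℤ (Gamma0 N) ℤ)
      (q := parabolicHoms ℤ (Gamma0 (N * q)) ℤ) (fun _ h => res₂_isParabolicHom N q h) |>.comp
      (HK.HSpace.toParHom N ℤ).toLinearMap)

/-- `cor` on the lattice. -/
def corL : Lat (N * q) →ₗ[ℤ] Lat N :=
  (HK.HSpace.toParHom N ℤ).symm.toLinearMap.comp
    ((cor N q).restrict (p := parabolicHoms ℤ (Gamma0 (N * q)) ℤ)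
      (q := parabolicHoms ℤ (Gamma0 N) ℤ) (fun _ h => cor_isParabolicHom N q h) |>.comp
      (HK.HSpace.toParHom (N * q) ℤ).toLinearMap)

/-- `W_q` on the lattice. -/
def atkinL (h : q.Coprime N) : Lat (N * q) →ₗ[ℤ] Lat (N * q) :=
  (HK.HSpace.toParHom (N * q) ℤ).symm.toLinearMap.comp
    ((atkin N q h).restrict (p := parabolicHoms ℤ (Gamma0 (N * q)) ℤ)
      (q := parabolicHoms ℤ (Gamma0 (N * q)) ℤ) (fun _ hx => atkin_isParabolicHom N q h hx) |>.comp
      (HK.HSpace.toParHom (N * q) ℤ).toLinearMap)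

variable {N q}

theorem hom_resL (a : Lat N) : (resL N q a).hom = res N q a.hom := rfl

theorem hom_res₂L (a : Lat N) : (res₂L N q a).hom = res₂ N q a.hom := rfl

theorem hom_corL (x : Lat (N * q)) : (corL N q x).hom = cor N q x.hom := rfl

theorem hom_atkinL (h : q.Coprime N) (x : Lat (N * q)) :
    (atkinL N q h x).hom = atkin N q h x.hom := rfl

theorem atkinL_atkinL (h : q.Coprime N) (x : Lat (N * q)) : atkinL N q h (atkinL N q h x) = x :=
  HK.HSpace.hom_injective (by rw [hom_atkinL, hom_atkinL, atkin_atkin])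

theorem atkinL_resL (h : q.Coprime N) (a : Lat N) : atkinL N q h (resL N q a) = res₂L N q a :=
  HK.HSpace.hom_injective (by rw [hom_atkinL, hom_resL, atkin_res, hom_res₂L])

theorem atkinL_res₂L (h : q.Coprime N) (a : Lat N) : atkinL N q h (res₂L N q a) = resL N q a :=
  HK.HSpace.hom_injective (by rw [hom_atkinL, hom_res₂L, atkin_res₂, hom_resL])

theorem corL_resL (hq : q.Prime) (h : q.Coprime N) (a : Lat N) :
    corL N q (resL N q a) = ((q : ℤ) + 1) • a :=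
  HK.HSpace.hom_injective ((cor_res N q hq h a.hom).trans (hom_zsmul _ _).symm)

theorem corL_res₂L [Fact q.Prime] (hqN : ¬ q ∣ N) (a : Lat N) :
    corL N q (res₂L N q a) = HK.heckeEnd N q ℤ a :=
  HK.HSpace.hom_injective
    (by rw [hom_corL, hom_res₂L, cor_res₂ N q hqN (R := ℤ), HK.hom_heckeEnd])

theorem resL_corL [Fact q.Prime] (h : q.Coprime N) (x : Lat (N * q)) :
    resL N q (corL N q x) = x + HK.heckeEnd (N * q) q ℤ (atkinL N q h x) :=
  HK.HSpace.hom_injective (by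
    rw [hom_resL, hom_corL, res_cor N q h (R := ℤ), HK.HSpace.hom_add, HK.hom_heckeEnd,
      hom_atkinL])

theorem heckeEnd_resL {ℓ : ℕ} [Fact ℓ.Prime] (hℓ : ℓ.Coprime q) (a : Lat N) :
    HK.heckeEnd (N * q) ℓ ℤ (resL N q a) = resL N q (HK.heckeEnd N ℓ ℤ a) :=
  HK.HSpace.hom_injective
    (by rw [HK.hom_heckeEnd, hom_resL, heckeHom_res N q hℓ, hom_resL, HK.hom_heckeEnd])

theorem heckeEnd_res₂L {ℓ : ℕ} [Fact ℓ.Prime] (hℓ : ℓ.Coprime q) (a : Lat N) :
    HK.heckeEnd (N * q) ℓ ℤ (res₂L N q a) = res₂L N q (HK.heckeEnd N ℓ ℤ a) :=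
  HK.HSpace.hom_injective
    (by rw [HK.hom_heckeEnd, hom_res₂L, heckeHom_res₂ N q hℓ, hom_res₂L, HK.hom_heckeEnd])

end Maps

section Pairing

variable (N : ℕ) [NeZero N]

/-- The intersection pairing on the lattice. -/
def pairL : Lat N →ₗ[ℤ] Lat N →ₗ[ℤ] ℤ :=
  (Pairing.pairingGamma0 N).compl₁₂ (HK.HSpace.toParHom N ℤ).toLinearMap
    (HK.HSpace.toParHom N ℤ).toLinearMap

theorem pairL_apply (a b : Lat N) :
    pairL N a b = Pairing.pairing (Gamma0 N) ℤ (HK.HSpace.toParHom N ℤ a)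
      (HK.HSpace.toParHom N ℤ b) := rfl

theorem pairL_skew (a b : Lat N) : pairL N a b = -pairL N b a :=
  Pairing.pairing_skew _ _

theorem pairL_surjective : Function.Surjective (pairL N) := by
  intro L
  obtain ⟨a, ha⟩ := (Pairing.pairing_bijective (Γ := Gamma0 N) (R := ℤ)).2
    (L.comp (HK.HSpace.toParHom N ℤ).symm.toLinearMap)
  refine ⟨(HK.HSpace.toParHom N ℤ).symm a, LinearMap.ext fun b => ?_⟩
  show Pairing.pairing (Gamma0 N) ℤ
    (HK.HSpace.toParHom N ℤ ((HK.HSpace.toParHom N ℤ).symm a)) (HK.HSpace.toParHom N ℤ b) = L b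
  rw [LinearEquiv.apply_symm_apply, ha]
  exact congrArg L ((HK.HSpace.toParHom N ℤ).symm_apply_apply b)

theorem pairL_eq_iff {a a' : Lat N} (h : ∀ b, pairL N a b = pairL N a' b) : a = a' := by
  refine (HK.HSpace.toParHom N ℤ).injective
    ((Pairing.pairing_bijective (Γ := Gamma0 N) (R := ℤ)).1 (LinearMap.ext fun b => ?_))
  have := h ((HK.HSpace.toParHom N ℤ).symm b)
  rwa [pairL_apply, pairL_apply, LinearEquiv.apply_symm_apply] at this

theorem pairL_dvd {p : ℤ} (hp : p ≠ 0) {a : Lat N} (h : ∀ b, p ∣ pairL N a b) :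
    ∃ a', a = p • a' := by
  obtain ⟨c, hc⟩ := Pairing.exists_eq_smul_of_forall_dvd_gamma0 N hp (HK.HSpace.toParHom N ℤ a)
    fun b => by
      have := h ((HK.HSpace.toParHom N ℤ).symm b)
      rwa [pairL_apply, LinearEquiv.apply_symm_apply] at this
  exact ⟨(HK.HSpace.toParHom N ℤ).symm c, by
    rw [← map_zsmul ((HK.HSpace.toParHom N ℤ).symm), ← hc]; exact ((HK.HSpace.toParHom N ℤ).symm_apply_apply a).symm⟩

variable {N} {q : ℕ} [NeZero q]

theorem pairL_resL (a : Lat N) (x : Lat (N * q)) :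
    pairL (N * q) (resL N q a) x = pairL N a (corL N q x) :=
  Pairing.pairingGamma0_res_cor N q _ _ _ _ rfl rfl

theorem pairL_atkinL (h : q.Coprime N) (x y : Lat (N * q)) :
    pairL (N * q) (atkinL N q h x) (atkinL N q h y) = pairL (N * q) x y :=
  Pairing.pairingGamma0_atkin N q h _ _ _ _ rfl rfl

theorem pairL_res₂L (h : q.Coprime N) (b : Lat N) (x : Lat (N * q)) :
    pairL (N * q) (res₂L N q b) x = pairL N b (corL N q (atkinL N q h x)) := by
  rw [← pairL_resL, ← atkinL_resL h]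
  conv_lhs => rw [← atkinL_atkinL h x]
  rw [pairL_atkinL]

/-- `T_ℓ` is self-adjoint. -/
theorem pairL_heckeEnd {ℓ : ℕ} [Fact ℓ.Prime] (hℓN : ¬ ℓ ∣ N) (a b : Lat N) :
    pairL N (HK.heckeEnd N ℓ ℤ a) b = pairL N a (HK.heckeEnd N ℓ ℤ b) := by
  have : NeZero ℓ := ⟨(Fact.out : ℓ.Prime).ne_zero⟩
  have h : ℓ.Coprime N := (Fact.out : ℓ.Prime).coprime_iff_not_dvd.mpr hℓN
  rw [← corL_res₂L hℓN, ← corL_res₂L hℓN]
  calc pairL N (corL N ℓ (res₂L N ℓ a)) b
      = -pairL N b (corL N ℓ (res₂L N ℓ a)) := pairL_skew N _ _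
    _ = -pairL (N * ℓ) (resL N ℓ b) (res₂L N ℓ a) := by rw [pairL_resL]
    _ = pairL (N * ℓ) (res₂L N ℓ a) (resL N ℓ b) := by
      rw [pairL_skew (N * ℓ) (res₂L N ℓ a)]
    _ = pairL (N * ℓ) (resL N ℓ a) (res₂L N ℓ b) := by
      rw [← pairL_atkinL h, atkinL_res₂L, atkinL_resL]
    _ = pairL N a (corL N ℓ (res₂L N ℓ b)) := pairL_resL a _

end Pairing

end Fermat.Agent.LR

end
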