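/-
The commutative algebra of Ribet's level raising argument (owner: helper61).
-/
import Mathlib

set_option autoImplicit false

namespace Fermat.Agent.LR

/-- Ribet's argument: if `u ∉ 𝔞` kills the kernel of `ι` modulo `p` and the cokernel of `ι'`
modulo `p`, and `ι' ∘ ι` kills modulo `p` a vector of support `𝔞`, then whatever kills
`ker ι'` lies in `𝔞`. -/
theorem mem_of_kills_ker {R : Type*} [CommRing R] {A B : Type*} [AddCommGroup A] [Module R A]
    [Module.Finite R A] [AddCommGroup B] [Module R B] (𝔞 : Ideal R) [h𝔞 : 𝔞.IsPrime] (p : R)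
    (hp : p ∈ 𝔞) (u : R) (hu : u ∉ 𝔞) (ι : A →ₗ[R] B) (ι' : B →ₗ[R] A)
    (hker : ∀ x, (∃ y, ι x = p • y) → ∃ x', u • x = p • x')
    (hcoker : ∀ x, ∃ y z, u • x = ι' y + p • z)
    (x₀ : A) (hx₀ : ∃ z, ι' (ι x₀) = p • z)
    (hsupp : ∀ r : R, (∃ x', r • x₀ = p • x') → r ∈ 𝔞)
    (t : R) (ht : ∀ y, ι' y = 0 → t • y = 0) : t ∈ 𝔞 := by
  by_contra hta
  -- some `s ∉ 𝔞` maps `A` into the image of `ι'`
  obtain ⟨s, hs, hsA⟩ : ∃ s ∉ 𝔞, ∀ x : A, ∃ y, s • x = ι' y := by
    let Q := A ⧸ LinearMap.range ι'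
    let f : Module.End R Q := u • LinearMap.id
    have hf : LinearMap.range f ≤ Ideal.span {p} • (⊤ : Submodule R Q) := by
      rintro _ ⟨x, rfl⟩
      obtain ⟨x, rfl⟩ := Submodule.Quotient.mk_surjective _ x
      obtain ⟨y, z, hz⟩ := hcoker x
      show u • Submodule.Quotient.mk x ∈ _
      rw [← Submodule.Quotient.mk_smul, hz, Submodule.Quotient.mk_add,
        (Submodule.Quotient.mk_eq_zero _).mpr (LinearMap.mem_range_self ι' y), zero_add,
        Submodule.Quotient.mk_smul]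
      exact Submodule.smul_mem_smul (Ideal.mem_span_singleton_self p) trivial
    obtain ⟨P, hmonic, -, hcoeff, hP⟩ :=
      LinearMap.exists_monic_and_natDegree_eq_and_coeff_mem_pow_and_aeval_eq_zero R f
        (Ideal.span {p}) hf
    refine ⟨P.eval u, fun hmem => hu ?_, fun x => ?_⟩
    · refine h𝔞.mem_of_pow_mem P.natDegree ?_
      rw [Polynomial.eval_eq_sum_range, Finset.sum_range_succ, hmonic.coeff_natDegree,
        one_mul] at hmem
      have hrest : ∑ k ∈ Finset.range P.natDegree, P.coeff k * u ^ k ∈ 𝔞 := by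
        refine Submodule.sum_mem _ fun k hk => Ideal.mul_mem_right _ _ ?_
        rw [Finset.mem_range] at hk
        have h1 := Ideal.pow_le_self (Nat.sub_ne_zero_of_lt hk) (hcoeff k)
        exact ((Ideal.span_singleton_le_iff_mem _).mpr hp) h1
      exact (Submodule.add_mem_iff_right _ hrest).mp hmem
    · have e : Polynomial.aeval f P = (P.eval u) • (LinearMap.id : Module.End R Q) := by
        have : f = algebraMap R (Module.End R Q) u := by
          rw [Algebra.algebraMap_eq_smul_one]; rfl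
        rw [this, Polynomial.aeval_algebraMap_apply_eq_algebraMap_eval, Algebra.algebraMap_eq_smul_one]
        rfl
      have h0 := LinearMap.congr_fun (hP.symm.trans e) (Submodule.Quotient.mk x)
      simp only [LinearMap.zero_apply, LinearMap.smul_apply, LinearMap.id_apply] at h0
      rw [← Submodule.Quotient.mk_smul, eq_comm, Submodule.Quotient.mk_eq_zero] at h0
      obtain ⟨y, hy⟩ := h0
      exact ⟨y, hy.symm⟩
  obtain ⟨z, hz⟩ := hx₀
  obtain ⟨w, hw⟩ := hsA z
  have h1 : t • (s • ι x₀ - p • w) = 0 := ht _ (by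
    rw [map_sub, map_smul, map_smul, hz, ← hw, smul_comm, sub_self])
  obtain ⟨x', hx'⟩ := hker ((t * s) • x₀) ⟨t • w, by
    rw [map_smul, mul_smul, smul_comm p t w, ← sub_eq_zero, ← smul_sub, h1]⟩
  have h2 := hsupp (u * (t * s)) ⟨x', by rw [mul_smul]; exact hx'⟩
  rcases h𝔞.mem_or_mem h2 with h3 | h3
  · exact hu h3
  rcases h𝔞.mem_or_mem h3 with h4 | h4
  · exact hta h4
  · exact hs h4

/-- A finite module whose annihilator lies in a prime `𝔭` has a vector killed exactly by `𝔭`. -/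
theorem exists_vector_ann_eq {T : Type*} [CommRing T] {V : Type*} [AddCommGroup V] [Module T V]
    [Finite V] (𝔭 : Ideal T) [h𝔭 : 𝔭.IsPrime] (hann : ∀ t : T, (∀ x : V, t • x = 0) → t ∈ 𝔭) :
    ∃ v : V, (∀ t ∈ 𝔭, t • v = 0) ∧ ∀ r ∉ 𝔭, r • v ≠ 0 := by
  let P : Submodule T V → Prop := fun N => ∀ t : T, (∀ x ∈ N, t • x = 0) → t ∈ 𝔭
  obtain ⟨N, hN, hmin⟩ : ∃ N, P N ∧ ∀ M, P M → M ≤ N → M = N := by
    have : Finite (Submodule T V) := Finite.of_injective _ SetLike.coe_injective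
    have hne : ({N | P N} : Set (Submodule T V)).Nonempty :=
      ⟨⊤, fun t ht => hann t fun x => ht x trivial⟩
    obtain ⟨N, hN⟩ := (Set.toFinite {N | P N}).exists_minimal hne
    exact ⟨N, hN.prop, fun M hM hle => le_antisymm hle (hN.le_of_le hM hle)⟩
  -- elements outside `𝔭` act surjectively
  have hout : ∀ r ∉ 𝔭, N.map (r • LinearMap.id) = N := by
    intro r hr
    refine hmin _ (fun t ht => ?_) ?_
    · have := hN (t * r) fun x hx => by
        rw [mul_smul]; exact ht _ (Submodule.mem_map_of_mem hx)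
      exact (h𝔭.mem_or_mem this).resolve_right hr
    · rintro _ ⟨x, hx, rfl⟩
      exact N.smul_mem r hx
  have hinj : ∀ r ∉ 𝔭, ∀ x ∈ N, r • x = 0 → x = 0 := by
    intro r hr x hx h0
    have hs : Function.Surjective (fun y : N => (⟨r • (y : V), N.smul_mem r y.2⟩ : N)) := by
      intro y
      obtain ⟨z, hz, e⟩ : (y : V) ∈ N.map (r • LinearMap.id) := (hout r hr).symm ▸ y.2
      exact ⟨⟨z, hz⟩, Subtype.ext e⟩
    have hi := Finite.injective_iff_surjective.mpr hs
    have := @hi ⟨x, hx⟩ 0 (Subtype.ext (by simp [h0]))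
    exact congrArg Subtype.val this
  have hkill : ∀ t ∈ 𝔭, ∀ x ∈ N, t • x = 0 := by
    intro t ht
    by_cases hP : P (N.map (t • LinearMap.id))
    · -- then `t` would act bijectively, so a power of it would act as `1`
      exfalso
      have he := hmin _ hP (by rintro _ ⟨x, hx, rfl⟩; exact N.smul_mem t hx)
      let g : N → N := fun y => ⟨t • (y : V), N.smul_mem t y.2⟩
      have hs : Function.Surjective g := by
        intro y
        obtain ⟨z, hz, e⟩ : (y : V) ∈ N.map (t • LinearMap.id) := he.symm ▸ y.2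
        exact ⟨⟨z, hz⟩, Subtype.ext e⟩
      have hb : Function.Bijective g := ⟨Finite.injective_iff_surjective.mpr hs, hs⟩
      let e := Equiv.ofBijective g hb
      obtain ⟨k, hk, hk'⟩ := (isOfFinOrder_iff_pow_eq_one.mp (isOfFinOrder_of_finite e))
      have hpow : ∀ (n : ℕ) (y : N), (((e ^ n) y : N) : V) = t ^ n • (y : V) := by
        intro n
        induction n with
        | zero => intro y; simp
        | succ n ih =>
          intro y
          rw [pow_succ, Equiv.Perm.mul_apply, ih, pow_succ, mul_smul]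
          rfl
      have := hN (t ^ k - 1) fun x hx => by
        rw [sub_smul, one_smul, ← hpow k ⟨x, hx⟩, hk']
        simp
      exact h𝔭.ne_top ((Ideal.eq_top_iff_one _).mpr
        ((Submodule.sub_mem_iff_right _ (Ideal.pow_mem_of_mem _ ht k hk)).mp this))
    · simp only [P, not_forall] at hP
      obtain ⟨s, hs, hs'⟩ := hP
      intro x hx
      refine hinj s hs' _ (N.smul_mem t hx) ?_
      exact hs _ (Submodule.mem_map_of_mem hx)
  obtain ⟨v, hv, hv0⟩ : ∃ v ∈ N, v ≠ 0 := by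
    by_contra hne
    simp only [not_exists, not_and, not_not] at hne
    exact h𝔭.ne_top ((Ideal.eq_top_iff_one _).mpr (hN 1 fun x hx => by rw [hne x hx, smul_zero]))
  exact ⟨v, fun t ht => hkill t ht v hv, fun r hr h0 => hv0 (hinj r hr v hv h0)⟩

/-- A nonzero vector is detected by some additive `ZMod p`-valued hom. -/
theorem exists_zmod_functional_aux {Q : Type*} [AddCommGroup Q] {p : ℕ} [Fact p.Prime]
    [Module (ZMod p) Q] (x : Q) (hx : x ≠ 0) : ∃ g : Q →+ ZMod p, g x ≠ 0 := by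
  obtain ⟨f, hf⟩ := Module.Projective.exists_dual_ne_zero (ZMod p) hx
  exact ⟨f.toAddMonoidHom, hf⟩

/-- In a group of exponent `p`, a nonzero element is detected by some `ZMod p`-valued hom. -/
theorem exists_zmod_functional {Q : Type*} [AddCommGroup Q] {p : ℕ} [Fact p.Prime]
    (hQ : ∀ q : Q, p • q = 0) (x : Q) (hx : x ≠ 0) : ∃ g : Q →+ ZMod p, g x ≠ 0 :=
  @exists_zmod_functional_aux Q _ p _ (AddCommGroup.zmodModule hQ) x hx

/-- Duality: if `B`-values of the adjoint detect `p`-divisibility, the cokernel of the adjoint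
map is killed modulo `p` by whatever kills the kernel modulo `p`. -/
theorem exists_of_adjoint {A B : Type*} [AddCommGroup A] [Module.Free ℤ A] [AddCommGroup B]
    {p : ℕ} [Fact p.Prime] (PA : A →ₗ[ℤ] A →ₗ[ℤ] ℤ) (PB : B →ₗ[ℤ] B →ₗ[ℤ] ℤ)
    (hsurj : Function.Surjective PA) (ι : A →ₗ[ℤ] B) (ι' : B →ₗ[ℤ] A) (u : A →ₗ[ℤ] A)
    (hadj : ∀ a y, PB (ι a) y = PA a (ι' y))
    (hself : ∀ a b, PA (u a) b = PA a (u b))
    (hB : ∀ b, (∀ y, (p : ℤ) ∣ PB b y) → ∃ b', b = (p : ℤ) • b')
    (hker : ∀ x, (∃ y, ι x = (p : ℤ) • y) → ∃ x', u x = (p : ℤ) • x') (x : A) :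
    ∃ y z, u x = ι' y + (p : ℤ) • z := by
  set S : Submodule ℤ A :=
    LinearMap.range ι' ⊔ LinearMap.range ((p : ℤ) • (LinearMap.id : A →ₗ[ℤ] A)) with hS
  by_cases hmem : u x ∈ S
  · obtain ⟨_, ⟨y, rfl⟩, _, ⟨z, rfl⟩, e⟩ := Submodule.mem_sup.mp hmem
    exact ⟨y, z, e.symm⟩
  exfalso
  have hpQ : ∀ q : A ⧸ S, p • q = 0 := by
    intro q
    obtain ⟨a, rfl⟩ := Submodule.Quotient.mk_surjective S q
    rw [← Submodule.Quotient.mk_smul, Submodule.Quotient.mk_eq_zero]
    exact Submodule.mem_sup_right ⟨a, by simp⟩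
  obtain ⟨φ, hφ⟩ := exists_zmod_functional hpQ (Submodule.Quotient.mk (u x) : A ⧸ S)
    (fun h => hmem ((Submodule.Quotient.mk_eq_zero S).mp h))
  let ψ : A →ₗ[ℤ] ZMod p := (φ.comp S.mkQ.toAddMonoidHom).toIntLinearMap
  obtain ⟨Φ, hΦ⟩ := Module.projective_lifting_property
    (Int.castAddHom (ZMod p)).toIntLinearMap ψ ZMod.intCast_surjective
  obtain ⟨a, ha⟩ := hsurj Φ
  have hval : ∀ b, ((PA a b : ℤ) : ZMod p) = φ (Submodule.Quotient.mk b) := fun b => by
    rw [ha]; exact LinearMap.congr_fun hΦ b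
  have hdvd : ∀ b ∈ S, (p : ℤ) ∣ PA a b := by
    intro b hb
    rw [← ZMod.intCast_zmod_eq_zero_iff_dvd, hval, (Submodule.Quotient.mk_eq_zero S).mpr hb,
      map_zero]
  obtain ⟨b', hb'⟩ := hB (ι a) fun y => by
    rw [hadj]; exact hdvd _ (Submodule.mem_sup_left ⟨y, rfl⟩)
  obtain ⟨a', ha'⟩ := hker a ⟨b', hb'⟩
  apply hφ
  rw [← hval, ← hself, ha', ZMod.intCast_zmod_eq_zero_iff_dvd, map_smul, LinearMap.smul_apply]
  exact ⟨PA a' x, by simp⟩

end Fermat.Agent.LR
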