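/-
The kernel of the degeneracy map modulo `p` is killed by `T_ℓ - (ℓ + 1)` (owner: helper61).
-/
import Fermat.Agent.LR.Operators
import Fermat.Agent.Ihara.Main

set_option autoImplicit false

namespace Fermat.Agent.LR

open CongruenceSubgroup ModularCurve.Period
open scoped MatrixGroups

variable {A : Type*} [AddCommGroup A]

/-- A pair `γ, δ` as in Ihara's lemma comes from `deltaGamma0`. -/
theorem exists_of_isDegeneracyPair {N q : ℕ} [NeZero q] {γ δ : Gamma0 N}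
    (h : Ihara.IsDegeneracyPair q (γ : SL(2, ℤ)) δ) :
    ∃ ε : Gamma0 (N * q), inclGamma0 N q ε = γ ∧ deltaGamma0 N q ε = δ := by
  obtain ⟨h00, h01, h10, h11⟩ := h
  have hδ := HK.dvd_gamma0_lower_left N δ
  have hmem : (γ : SL(2, ℤ)) ∈ Gamma0 (N * q) := by
    refine HK.mem_Gamma0_of_dvd (N * q) ?_
    rw [← h10]
    push_cast
    rw [mul_comm (N : ℤ)]
    exact mul_dvd_mul_left _ hδ
  refine ⟨⟨γ, hmem⟩, Subtype.ext rfl, Subtype.ext (Matrix.SpecialLinearGroup.ext _ _ fun i j => ?_)⟩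
  show (deltaSL N q ⟨(γ : SL(2, ℤ)), hmem⟩).1 i j = _
  fin_cases i <;> fin_cases j <;> simp [deltaSL, h00, h01, h11]
  rw [← h10, Int.mul_ediv_cancel_left _ (by exact_mod_cast NeZero.ne q)]

theorem res₂_eq_res_of_dEntry (N ℓ : ℕ) (φ : Hom1 N A)
    (hφ : ∀ γ γ' : Gamma0 N,
      (((γ : SL(2, ℤ)) 1 1 : ℤ) : ZMod N) = (((γ' : SL(2, ℤ)) 1 1 : ℤ) : ZMod N) →
        φ (Additive.ofMul γ) = φ (Additive.ofMul γ')) :
    res₂ N ℓ φ = res N ℓ φ :=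
  AddMonoidHom.ext fun _ => hφ _ _ rfl

/-- A homomorphism depending only on `d mod N` is Eisenstein. -/
theorem heckeHom_eq_of_dEntry {N ℓ : ℕ} [NeZero N] [Fact ℓ.Prime] (hℓN : ¬ ℓ ∣ N)
    {R : Type*} [Semiring R] [Module R A] (φ : Hom1 N A)
    (hφ : ∀ γ γ' : Gamma0 N,
      (((γ : SL(2, ℤ)) 1 1 : ℤ) : ZMod N) = (((γ' : SL(2, ℤ)) 1 1 : ℤ) : ZMod N) →
        φ (Additive.ofMul γ) = φ (Additive.ofMul γ')) :
    HK.heckeHom N ℓ R A φ = ((ℓ : ℤ) + 1) • φ := by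
  have : NeZero ℓ := ⟨(Fact.out : ℓ.Prime).ne_zero⟩
  rw [← cor_res₂ N ℓ hℓN (R := R), res₂_eq_res_of_dEntry N ℓ φ hφ,
    cor_res N ℓ Fact.out ((Fact.out : ℓ.Prime).coprime_iff_not_dvd.mpr hℓN)]

/-- Ihara's lemma in the form used for level raising. -/
theorem dvd_heckeHom_sub_of_ker {N q p : ℕ} [NeZero N] (hq : q.Prime) (hqN : ¬ q ∣ N)
    (hp : p.Prime) (hp2 : p ≠ 2) (hqp : q ≠ p) {a b : Hom1 N ℤ}
    (ha : IsParabolicHom (Gamma0 N) a)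
    (hab : ∀ γ : Gamma0 (N * q),
      (p : ℤ) ∣ res N q a (Additive.ofMul γ) + res₂ N q b (Additive.ofMul γ))
    {ℓ : ℕ} [Fact ℓ.Prime] (hℓN : ¬ ℓ ∣ N) (g : Gamma0 N) :
    (p : ℤ) ∣ HK.heckeHom N ℓ ℤ ℤ a (Additive.ofMul g) - ((ℓ : ℤ) + 1) * a (Additive.ofMul g) ∧
      (p : ℤ) ∣ HK.heckeHom N ℓ ℤ ℤ b (Additive.ofMul g) - ((ℓ : ℤ) + 1) * b (Additive.ofMul g) := by
  have : NeZero q := ⟨hq.ne_zero⟩
  let c : ℤ →+ ZMod p := Int.castAddHom (ZMod p)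
  have hdz : ∀ n : ℤ, c n = 0 ↔ (p : ℤ) ∣ n := fun n => ZMod.intCast_zmod_eq_zero_iff_dvd n p
  have key : ∀ γ γ' : Gamma0 N,
      (((γ : SL(2, ℤ)) 1 1 : ℤ) : ZMod N) = (((γ' : SL(2, ℤ)) 1 1 : ℤ) : ZMod N) →
      c.comp a (Additive.ofMul γ) = c.comp a (Additive.ofMul γ') ∧
      c.comp b (Additive.ofMul γ) = c.comp b (Additive.ofMul γ') := by
    intro γ γ' hd
    refine Ihara.ihara_eq_of_d_eq hq hqN hp hp2 hqp
      (fun x => by rw [nsmul_eq_mul, ZMod.natCast_self, zero_mul]) _ _ (fun η hη => ?_)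
      (fun η δ hp' => ?_) γ γ' hd
    · show c (a (Additive.ofMul η)) = 0
      rw [ha η (by rw [hη]; norm_num), map_zero]
    · obtain ⟨ε, rfl, rfl⟩ := exists_of_isDegeneracyPair hp'
      show c (a _) + c (b _) = 0
      rw [← map_add, hdz]
      exact hab ε
  have comb : ∀ x : Hom1 N ℤ, (∀ γ γ' : Gamma0 N,
      (((γ : SL(2, ℤ)) 1 1 : ℤ) : ZMod N) = (((γ' : SL(2, ℤ)) 1 1 : ℤ) : ZMod N) →
      c.comp x (Additive.ofMul γ) = c.comp x (Additive.ofMul γ')) →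
      (p : ℤ) ∣ HK.heckeHom N ℓ ℤ ℤ x (Additive.ofMul g) -
        ((ℓ : ℤ) + 1) * x (Additive.ofMul g) := by
    intro x hx
    have h := heckeHom_eq_of_dEntry hℓN (R := ℤ) (c.comp x) hx
    rw [HK.heckeHom_comp (R := ℤ)] at h
    have h' := DFunLike.congr_fun h (Additive.ofMul g)
    rw [← hdz, map_sub, sub_eq_zero, ← smul_eq_mul, map_zsmul]
    exact h'
  exact ⟨comb a fun γ γ' h => (key γ γ' h).1, comb b fun γ γ' h => (key γ γ' h).2⟩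

end Fermat.Agent.LR
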