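/-
Level raising: Ribet's argument in the lattice of parabolic homomorphisms (owner: helper61).
-/
import Fermat.Agent.LR.Lattice
import Fermat.Agent.LR.Algebra
import Fermat.Agent.LR.Shimura
import Fermat.Agent.LR.NonEisenstein
import Fermat.Agent.Eigen.Points
import Fermat.Agent.Eigen.Coeff
import Fermat.Agent.MF.IntStruct.Main
import Fermat.Prelude.Def_FreyPackage_LevelRaising

set_option autoImplicit false

noncomputable section

namespace Fermat.Agent.LR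

open CongruenceSubgroup ModularFormClass
open scoped MatrixGroups

/-- An additive map commuting with the variables commutes with the polynomial ring. -/
theorem map_smul_of_X {σ A B : Type*} [AddCommGroup A] [AddCommGroup B]
    [Module (MvPolynomial σ ℤ) A] [Module (MvPolynomial σ ℤ) B] (g : A →+ B)
    (h : ∀ i a, g ((MvPolynomial.X i : MvPolynomial σ ℤ) • a) =
      (MvPolynomial.X i : MvPolynomial σ ℤ) • g a)
    (r : MvPolynomial σ ℤ) (a : A) : g (r • a) = r • g a := by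
  induction r using MvPolynomial.induction_on generalizing a with
  | C n =>
    have e : (MvPolynomial.C n : MvPolynomial σ ℤ) = (n : MvPolynomial σ ℤ) :=
      RingHom.congr_fun (RingHom.ext_int (MvPolynomial.C) (Int.castRingHom _)) n
    rw [e, Int.cast_smul_eq_zsmul, Int.cast_smul_eq_zsmul, map_zsmul]
  | add r s hr hs => rw [add_smul, add_smul, map_add, hr, hs]
  | mul_X r i hr => rw [mul_smul, mul_smul, hr, h]

section Level

/-- Evaluation of the polynomial Hecke algebra on a set `G` of good primes at level `M`. -/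
def evT (M : ℕ) [NeZero M] (G : Set ℕ) (hG : ∀ ℓ ∈ G, Nat.Prime ℓ ∧ ¬ ℓ ∣ M) :
    MvPolynomial G ℤ →+* HK.TFull M :=
  MvPolynomial.eval₂Hom (Int.castRingHom _) fun ℓ =>
    CuspForm.heckeAlgebra.T (hG ℓ.1 ℓ.2).1 (hG ℓ.1 ℓ.2).2 (Set.notMem_empty _)

theorem evT_X (M : ℕ) [NeZero M] (G : Set ℕ) (hG : ∀ ℓ ∈ G, Nat.Prime ℓ ∧ ¬ ℓ ∣ M) (ℓ : G) :
    evT M G hG (MvPolynomial.X ℓ) =
      CuspForm.heckeAlgebra.T (hG ℓ.1 ℓ.2).1 (hG ℓ.1 ℓ.2).2 (Set.notMem_empty _) :=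
  MvPolynomial.eval₂Hom_X' _ _ _

end Level

/-- A vector with support `𝔭` modulo `p` in a faithful module. -/
theorem exists_vector_mod {T M : Type*} [CommRing T] [AddCommGroup M] [Module T M]
    [Module.Finite ℤ M] (hfaith : ∀ t : T, (∀ x : M, t • x = 0) → t = 0) {p : ℕ} (hp : p.Prime)
    (𝔭 : Ideal T) [𝔭.IsPrime] (hp𝔭 : (p : T) ∈ 𝔭) :
    ∃ v : M, (∀ t ∈ 𝔭, ∃ w, t • v = (p : ℤ) • w) ∧ ∀ t ∉ 𝔭, ¬ ∃ w, t • v = (p : ℤ) • w := by
  have : Module.Finite T M := Module.Finite.of_restrictScalars_finite ℤ _ _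
  let f : Module.End T M := (p : T) • LinearMap.id
  have hf : ∀ x, f x = (p : ℤ) • x := fun x => by
    show (p : T) • x = _
    rw [Nat.cast_smul_eq_nsmul, natCast_zsmul]
  let V := M ⧸ LinearMap.range f
  have hVp : ∀ v : V, (p : ℤ) • v = 0 := by
    intro v
    obtain ⟨x, rfl⟩ := Submodule.Quotient.mk_surjective _ v
    rw [← Submodule.Quotient.mk_smul, Submodule.Quotient.mk_eq_zero]
    exact ⟨x, hf x⟩
  have : Module.Finite ℤ V :=
    Module.Finite.of_surjective ((LinearMap.range f).mkQ.restrictScalars ℤ)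
      (Submodule.Quotient.mk_surjective _)
  have : Finite V := Module.finite_of_fg_torsion V fun v =>
    ⟨⟨(p : ℤ), mem_nonZeroDivisors_of_ne_zero (by exact_mod_cast hp.ne_zero)⟩, hVp v⟩
  obtain ⟨v, hv, hv'⟩ := exists_vector_ann_eq (V := V) 𝔭 fun t ht => by
    by_contra htp
    obtain ⟨P, hmonic, -, hcoeff, hP⟩ :=
      LinearMap.exists_monic_and_natDegree_eq_and_coeff_mem_pow_and_aeval_eq_zero T
        (t • LinearMap.id : Module.End T M) (Ideal.span {(p : T)}) (by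
          rintro _ ⟨x, rfl⟩
          have := ht (Submodule.Quotient.mk x)
          rw [← Submodule.Quotient.mk_smul, Submodule.Quotient.mk_eq_zero] at this
          obtain ⟨y, hy⟩ := this
          show t • x ∈ _
          rw [← hy]
          exact Submodule.smul_mem_smul (Ideal.mem_span_singleton_self _) trivial)
    have h0 : P.eval t = 0 := by
      refine hfaith _ fun x => ?_
      have e : (t • LinearMap.id : Module.End T M) = algebraMap T _ t :=
        (Algebra.algebraMap_eq_smul_one t).symm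
      rw [e, Polynomial.aeval_algebraMap_apply_eq_algebraMap_eval] at hP
      exact LinearMap.congr_fun hP x
    refine htp (Ideal.IsPrime.mem_of_pow_mem inferInstance P.natDegree ?_)
    rw [Polynomial.eval_eq_sum_range, Finset.sum_range_succ, hmonic.coeff_natDegree, one_mul,
      add_eq_zero_iff_eq_neg'] at h0
    rw [h0]
    refine Submodule.neg_mem _ (Submodule.sum_mem _ fun k hk => Ideal.mul_mem_right _ _ ?_)
    rw [Finset.mem_range] at hk
    exact (Ideal.span_singleton_le_iff_mem _).mpr hp𝔭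
      (Ideal.pow_le_self (Nat.sub_ne_zero_of_lt hk) (hcoeff k))
  obtain ⟨v, rfl⟩ := Submodule.Quotient.mk_surjective _ v
  refine ⟨v, fun t ht => ?_, fun t ht hw => ?_⟩
  · have := hv t ht
    rw [← Submodule.Quotient.mk_smul, Submodule.Quotient.mk_eq_zero] at this
    obtain ⟨w, hw⟩ := this
    exact ⟨w, hw.symm.trans (hf w)⟩
  · obtain ⟨w, hw⟩ := hw
    refine hv' t ht ?_
    rw [← Submodule.Quotient.mk_smul, Submodule.Quotient.mk_eq_zero]
    exact ⟨w, (hf w).trans hw.symm⟩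

/-- A residually Eisenstein-free eigen system in the lattice. -/
theorem exists_lattice_vector {N p : ℕ} [NeZero N] (hp : p.Prime)
    (χ : HK.TFull N →+* integralClosure ℤ ℂ) (𝔪 : Ideal (integralClosure ℤ ℂ)) (hmax : 𝔪.IsMaximal)
    (hpm : (p : integralClosure ℤ ℂ) ∈ 𝔪) :
    ∃ v : Lat N, (∀ t, χ t ∈ 𝔪 → ∃ w, HK.heckeAct N ℤ t v = (p : ℤ) • w) ∧
      ∀ t, χ t ∉ 𝔪 → ¬ ∃ w, HK.heckeAct N ℤ t v = (p : ℤ) • w := by
  letI : Module (HK.TFull N) (Lat N) := Module.compHom _ (HK.heckeAct N ℤ)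
  have : Module.Finite ℤ (Lat N) := Module.Finite.equiv (HK.hCoord N ℤ).symm
  have : 𝔪.IsPrime := hmax.isPrime
  have : (Ideal.comap χ 𝔪).IsPrime := Ideal.comap_isPrime χ 𝔪
  exact exists_vector_mod (T := HK.TFull N) (M := Lat N)
    (fun t ht => heckeAct_injective N (LinearMap.ext fun x => (ht x).trans
      (by rw [map_zero, LinearMap.zero_apply]))) hp (Ideal.comap χ 𝔪)
    (by rw [Ideal.mem_comap, map_natCast]; exact hpm)

/-- Level raising with an abstract residual eigen system `θ`. -/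
theorem exists_ideal_new {N p q : ℕ} [NeZero N] [NeZero q] (hp : p.Prime) (hp2 : p ≠ 2)
    [Fact q.Prime] (hqN : ¬ q ∣ N) (hqp : q ≠ p) (G : Set ℕ)
    (hG : ∀ ℓ ∈ G, Nat.Prime ℓ ∧ ¬ ℓ ∣ N * q)
    (χ : HK.TFull N →+* integralClosure ℤ ℂ) (𝔪 : Ideal (integralClosure ℤ ℂ)) (hmax : 𝔪.IsMaximal)
    (hpm : (p : integralClosure ℤ ℂ) ∈ 𝔪) (θ : MvPolynomial G ℤ →+* ZMod p)
    (hθ : ∀ r, θ r = 0 ↔
      χ (evT N G (fun ℓ h => ⟨(hG ℓ h).1, fun hd => (hG ℓ h).2 (hd.mul_right q)⟩) r) ∈ 𝔪)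
    (ℓ₀ : G) (hℓ₀ : θ (MvPolynomial.X ℓ₀) ≠ ((ℓ₀ : ℕ) : ZMod p) + 1)
    (hq : ∃ e : ℤ, e * e = 1 ∧
      χ (CuspForm.heckeAlgebra.T Fact.out hqN (Set.notMem_empty q)) -
        e * ((q : integralClosure ℤ ℂ) + 1) ∈ 𝔪) :
    ∀ r : MvPolynomial G ℤ,
      (∀ y : Lat (N * q), HK.heckeEnd (N * q) q ℤ (HK.heckeEnd (N * q) q ℤ y) = y →
        HK.heckeAct (N * q) ℤ (evT (N * q) G hG r) y = 0) → θ r = 0 := by
  have hGN : ∀ ℓ ∈ G, Nat.Prime ℓ ∧ ¬ ℓ ∣ N :=
    fun ℓ h => ⟨(hG ℓ h).1, fun hd => (hG ℓ h).2 (hd.mul_right q)⟩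
  have hqc : q.Coprime N := (Fact.out : q.Prime).coprime_iff_not_dvd.mpr hqN
  letI : Module (MvPolynomial G ℤ) (Lat N) :=
    Module.compHom _ ((HK.heckeAct N ℤ).comp (evT N G hGN))
  letI : Module (MvPolynomial G ℤ) (Lat (N * q)) :=
    Module.compHom _ ((HK.heckeAct (N * q) ℤ).comp (evT (N * q) G hG))
  have hXN : ∀ (ℓ : G) (a : Lat N), (MvPolynomial.X ℓ : MvPolynomial G ℤ) • a =
      haveI : Fact (ℓ : ℕ).Prime := ⟨(hG ℓ.1 ℓ.2).1⟩
      HK.heckeEnd N ℓ ℤ a := by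
    intro ℓ a
    have : Fact (ℓ : ℕ).Prime := ⟨(hG ℓ.1 ℓ.2).1⟩
    show HK.heckeAct N ℤ (evT N G hGN (MvPolynomial.X ℓ)) a = _
    rw [evT_X, heckeAct_T (hGN ℓ.1 ℓ.2).2]
  have hXM : ∀ (ℓ : G) (a : Lat (N * q)), (MvPolynomial.X ℓ : MvPolynomial G ℤ) • a =
      haveI : Fact (ℓ : ℕ).Prime := ⟨(hG ℓ.1 ℓ.2).1⟩
      HK.heckeEnd (N * q) ℓ ℤ a := by
    intro ℓ a
    have : Fact (ℓ : ℕ).Prime := ⟨(hG ℓ.1 ℓ.2).1⟩
    show HK.heckeAct (N * q) ℤ (evT (N * q) G hG (MvPolynomial.X ℓ)) a = _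
    rw [evT_X, heckeAct_T (hG ℓ.1 ℓ.2).2]
  have hcop : ∀ ℓ : G, Nat.Coprime ℓ q := fun ℓ =>
    (hG ℓ.1 ℓ.2).1.coprime_iff_not_dvd.mpr fun hd => (hG ℓ.1 ℓ.2).2 (hd.mul_left N)
  -- the degeneracy map and its adjoint
  let ιZ : (Lat N × Lat N) →ₗ[ℤ] Lat (N * q) := (resL N q).coprod (res₂L N q)
  let ιZ' : Lat (N * q) →ₗ[ℤ] Lat N × Lat N :=
    (corL N q).prod ((corL N q).comp (atkinL N q hqc))
  let PA : (Lat N × Lat N) →ₗ[ℤ] (Lat N × Lat N) →ₗ[ℤ] ℤ :=
    (pairL N).compl₁₂ (LinearMap.fst ℤ _ _) (LinearMap.fst ℤ _ _) +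
      (pairL N).compl₁₂ (LinearMap.snd ℤ _ _) (LinearMap.snd ℤ _ _)
  have hPA : ∀ a b : Lat N × Lat N, PA a b = pairL N a.1 b.1 + pairL N a.2 b.2 := fun _ _ => rfl
  have hιX : ∀ (ℓ : G) a, ιZ ((MvPolynomial.X ℓ : MvPolynomial G ℤ) • a) =
      (MvPolynomial.X ℓ : MvPolynomial G ℤ) • ιZ a := by
    intro ℓ a
    have : Fact (ℓ : ℕ).Prime := ⟨(hG ℓ.1 ℓ.2).1⟩
    simp only [ιZ, LinearMap.coprod_apply, Prod.smul_fst, Prod.smul_snd, hXN, hXM, map_add,
      heckeEnd_resL (hcop ℓ), heckeEnd_res₂L (hcop ℓ)]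
  let ι : (Lat N × Lat N) →ₗ[MvPolynomial G ℤ] Lat (N * q) :=
    { toFun := ιZ
      map_add' := map_add ιZ
      map_smul' := fun r a => map_smul_of_X ιZ.toAddMonoidHom hιX r a }
  have hadj : ∀ a y, pairL (N * q) (ιZ a) y = PA a (ιZ' y) := by
    intro a y
    simp only [ιZ, ιZ', hPA, LinearMap.coprod_apply, LinearMap.prod_apply, Function.prod,
      LinearMap.comp_apply, map_add, LinearMap.add_apply, pairL_resL, pairL_res₂L hqc]
  have hPAeq : ∀ x x' : Lat N × Lat N, (∀ b, PA b x = PA b x') → x = x' := by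
    intro x x' h
    refine Prod.ext (pairL_eq_iff N fun b => ?_) (pairL_eq_iff N fun b => ?_)
    · have := h (b, 0)
      simp only [hPA, map_zero, LinearMap.zero_apply, add_zero] at this
      rw [pairL_skew N x.1, pairL_skew N x'.1, this]
    · have := h (0, b)
      simp only [hPA, map_zero, LinearMap.zero_apply, zero_add] at this
      rw [pairL_skew N x.2, pairL_skew N x'.2, this]
  have hι'X : ∀ (ℓ : G) y, ιZ' ((MvPolynomial.X ℓ : MvPolynomial G ℤ) • y) =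
      (MvPolynomial.X ℓ : MvPolynomial G ℤ) • ιZ' y := by
    intro ℓ y
    have : Fact (ℓ : ℕ).Prime := ⟨(hG ℓ.1 ℓ.2).1⟩
    refine hPAeq _ _ fun b => ?_
    rw [← hadj, hXM, ← pairL_heckeEnd (hG ℓ.1 ℓ.2).2, ← hXM, ← hιX, hadj, hPA, hPA]
    simp only [Prod.smul_fst, Prod.smul_snd, hXN, pairL_heckeEnd (hGN ℓ.1 ℓ.2).2]
  let ι' : Lat (N * q) →ₗ[MvPolynomial G ℤ] Lat N × Lat N :=
    { toFun := ιZ'
      map_add' := map_add ιZ'
      map_smul' := fun r a => map_smul_of_X ιZ'.toAddMonoidHom hι'X r a }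
  have hfree : Module.Free ℤ (Lat N) := Module.Free.of_equiv (HK.hCoord N ℤ).symm
  have hfin : Module.Finite ℤ (Lat N) := Module.Finite.equiv (HK.hCoord N ℤ).symm
  have : Module.Finite (MvPolynomial G ℤ) (Lat N × Lat N) :=
    Module.Finite.of_restrictScalars_finite ℤ _ _
  -- the Eisenstein annihilator
  let u : MvPolynomial G ℤ :=
    MvPolynomial.X ℓ₀ - ((((ℓ₀ : ℕ) : ℤ) + 1 : ℤ) : MvPolynomial G ℤ)
  have hu : θ u ≠ 0 := by
    simp only [u, map_sub, map_intCast, sub_ne_zero]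
    push_cast
    exact hℓ₀
  have : Fact (ℓ₀ : ℕ).Prime := ⟨(hG ℓ₀.1 ℓ₀.2).1⟩
  have huN : ∀ a : Lat N,
      u • a = HK.heckeEnd N ℓ₀ ℤ a - (((ℓ₀ : ℕ) : ℤ) + 1) • a := fun a => by
    simp only [u, sub_smul, Int.cast_smul_eq_zsmul, hXN]
  have hker : ∀ x : Lat N × Lat N, (∃ y, ιZ x = (p : ℤ) • y) → ∃ x', u • x = (p : ℤ) • x' := by
    rintro x ⟨y, hy⟩
    have hd : ∀ g, (p : ℤ) ∣ res N q x.1.hom (Additive.ofMul g) +
        res₂ N q x.2.hom (Additive.ofMul g) := fun g => by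
      refine ⟨y.hom (Additive.ofMul g), ?_⟩
      have h := congrArg (fun z : Lat (N * q) => z.hom (Additive.ofMul g)) hy
      simp only [hom_zsmul, AddMonoidHom.smul_apply, smul_eq_mul] at h
      exact h
    have hmod : ∀ z : Lat N, (∀ g, (p : ℤ) ∣ (u • z).hom (Additive.ofMul g)) →
        ∃ z', u • z = (p : ℤ) • z' := by
      intro z hz
      refine pairL_dvd N (by exact_mod_cast hp.ne_zero) fun b => ?_
      choose w hw using hz
      have hp0 : (p : ℤ) ≠ 0 := by exact_mod_cast hp.ne_zero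
      let φ : Hom1 N ℤ := AddMonoidHom.mk' (fun g => w g.toMul) fun g g' => by
        apply mul_left_cancel₀ hp0
        rw [mul_add, ← hw, ← hw, ← hw, ← map_add]
        rfl
      have hφ : φ ∈ ModularCurve.Period.parabolicHoms ℤ (Gamma0 N) ℤ := fun g hg => by
        have e := hw g
        have e0 : (u • z).hom (Additive.ofMul g) = 0 := (HK.HSpace.toParHom N ℤ (u • z)).2 g hg
        rw [e0] at e
        exact (mul_eq_zero.mp e.symm).resolve_left hp0
      have e : u • z = (p : ℤ) • (HK.HSpace.mk φ hφ : Lat N) :=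
        HK.HSpace.hom_injective (AddMonoidHom.ext fun g => by
          rw [hom_zsmul]; exact hw g.toMul)
      rw [e, map_zsmul, LinearMap.smul_apply, smul_eq_mul]
      exact dvd_mul_right _ _
    have h12 := fun g => dvd_heckeHom_sub_of_ker (Fact.out : q.Prime) hqN hp hp2 hqp
      (HK.HSpace.toParHom N ℤ x.1).2 hd (hGN ℓ₀.1 ℓ₀.2).2 g
    have e : ∀ (z : Lat N) (g : Gamma0 N), (u • z).hom (Additive.ofMul g) =
        HK.heckeHom N ℓ₀ ℤ ℤ z.hom (Additive.ofMul g) -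
          (((ℓ₀ : ℕ) : ℤ) + 1) * z.hom (Additive.ofMul g) := fun z g => by
      rw [huN]
      rfl
    obtain ⟨z₁, hz₁⟩ := hmod x.1 fun g => by rw [e]; exact (h12 g).1
    obtain ⟨z₂, hz₂⟩ := hmod x.2 fun g => by rw [e]; exact (h12 g).2
    exact ⟨(z₁, z₂), Prod.ext hz₁ hz₂⟩
  have hsurj : Function.Surjective PA := by
    intro L
    obtain ⟨a, ha⟩ := pairL_surjective N (L.comp (LinearMap.inl ℤ _ _))
    obtain ⟨b, hb⟩ := pairL_surjective N (L.comp (LinearMap.inr ℤ _ _))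
    refine ⟨(a, b), LinearMap.ext fun c => ?_⟩
    rw [hPA, ha, hb, LinearMap.comp_apply, LinearMap.comp_apply, ← map_add]
    simp
  let uZ : (Lat N × Lat N) →ₗ[ℤ] Lat N × Lat N :=
    (DistribSMul.toAddMonoidHom (Lat N × Lat N) u).toIntLinearMap
  have : Fact p.Prime := ⟨hp⟩
  have hself : ∀ a b, PA (uZ a) b = PA a (uZ b) := by
    intro a b
    show PA (u • a) b = PA a (u • b)
    simp only [hPA, Prod.smul_fst, Prod.smul_snd, huN, map_sub, map_zsmul, LinearMap.sub_apply,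
      LinearMap.smul_apply, pairL_heckeEnd (hGN ℓ₀.1 ℓ₀.2).2]
  have hcoker := fun x => exists_of_adjoint (p := p) PA (pairL (N * q)) hsurj ιZ ιZ' uZ hadj hself
    (fun b hb => pairL_dvd (N * q) (by exact_mod_cast hp.ne_zero) hb) hker x
  have hpsmul : ∀ {A : Type} [AddCommGroup A] [Module (MvPolynomial G ℤ) A] (x : A),
      (p : MvPolynomial G ℤ) • x = (p : ℤ) • x := fun x => by
    rw [Nat.cast_smul_eq_nsmul, natCast_zsmul]
  -- the vector
  obtain ⟨v, hv, hv'⟩ := exists_lattice_vector hp χ 𝔪 hmax hpm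
  obtain ⟨e, he, heq⟩ := hq
  obtain ⟨w, hw⟩ : ∃ w, HK.heckeEnd N q ℤ v - (e * ((q : ℤ) + 1)) • v = (p : ℤ) • w := by
    obtain ⟨w, hw⟩ := hv (CuspForm.heckeAlgebra.T Fact.out hqN (Set.notMem_empty q) -
      ((e * ((q : ℤ) + 1) : ℤ) : HK.TFull N))
      (by rw [map_sub, map_intCast]; push_cast; exact heq)
    refine ⟨w, ?_⟩
    rw [map_sub, map_intCast, heckeAct_T hqN, LinearMap.sub_apply, Module.End.intCast_apply] at hw
    exact hw
  have hx₀ : ∃ z, ι' (ι (v, -(e • v))) = (p : MvPolynomial G ℤ) • z := by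
    refine ⟨(-(e • w), w), ?_⟩
    rw [hpsmul]
    show ιZ' (ιZ (v, -(e • v))) = _
    simp only [ιZ, ιZ', LinearMap.coprod_apply, LinearMap.prod_apply, Function.prod, LinearMap.comp_apply,
      map_add, map_neg, map_zsmul, corL_resL (Fact.out : q.Prime) hqc, corL_res₂L hqN,
      atkinL_resL hqc, atkinL_res₂L hqc, Prod.smul_mk]
    rw [sub_eq_iff_eq_add] at hw
    rw [hw]
    have hee : ∀ a : Lat N, e • e • a = a := fun a => by rw [smul_smul, he, one_smul]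
    refine Prod.ext ?_ ?_ <;>
      simp only [Prod.fst_add, Prod.snd_add, Prod.smul_fst, Prod.smul_snd, Prod.fst_neg,
        Prod.snd_neg, neg_smul, one_smul, smul_add, mul_smul, hee, smul_comm e (p : ℤ) w,
        smul_neg, smul_comm e ((q : ℤ) + 1) v, smul_comm e ((q : ℤ) + 1) (e • v)] <;>
      abel
  intro r hr
  set 𝔞 := RingHom.ker θ
  have : 𝔞.IsPrime := RingHom.ker_isPrime θ
  refine mem_of_kills_ker 𝔞 (p : MvPolynomial G ℤ) (by simp [𝔞, RingHom.mem_ker]) u hu ι ι'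
    (fun x hx => ?_) (fun x => ?_) (v, -(e • v)) hx₀ (fun s hs => ?_) r (fun y hy => ?_)
  · obtain ⟨y, hy⟩ := hx
    obtain ⟨x', hx'⟩ := hker x ⟨y, hy.trans (hpsmul y)⟩
    exact ⟨x', hx'.trans (hpsmul x').symm⟩
  · obtain ⟨y, z, hyz⟩ := hcoker x
    refine ⟨y, z, ?_⟩
    rw [hpsmul]
    exact hyz
  · obtain ⟨x', hx'⟩ := hs
    show θ s = 0
    rw [hθ]
    by_contra hne
    refine hv' _ hne ⟨x'.1, ?_⟩
    exact (congrArg Prod.fst hx').trans (hpsmul x'.1)
  · have h1 : corL N q y = 0 := congrArg Prod.fst hy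
    have h2 : corL N q (atkinL N q hqc y) = 0 := congrArg Prod.snd hy
    refine hr y ?_
    have e1 := resL_corL hqc y
    have e2 := resL_corL hqc (atkinL N q hqc y)
    rw [h1, map_zero] at e1
    rw [h2, map_zero, atkinL_atkinL] at e2
    rw [eq_neg_of_add_eq_zero_right e2.symm, map_neg, eq_neg_of_add_eq_zero_right e1.symm, neg_neg]

end Fermat.Agent.LR

end
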