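/-
From Ribet's lattice argument to a congruent eigenform new at `q` (owner: helper61).
-/
import Fermat.Agent.LR.Main

set_option autoImplicit false

noncomputable section

namespace Fermat.Agent.LR

open CongruenceSubgroup ModularFormClass
open scoped MatrixGroups

/-- The elements of the Hecke algebra killing the lattice vectors fixed by `U_q²`. -/
def annFixed (M q : ℕ) [NeZero M] [Fact q.Prime] : Ideal (HK.TFull M) where
  carrier := {t | ∀ y : Lat M, HK.heckeEnd M q ℤ (HK.heckeEnd M q ℤ y) = y →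
    HK.heckeAct M ℤ t y = 0}
  add_mem' {s t} hs ht y hy := by rw [map_add, LinearMap.add_apply, hs y hy, ht y hy, add_zero]
  zero_mem' y _ := by rw [map_zero, LinearMap.zero_apply]
  smul_mem' s t ht y hy := by
    rw [smul_eq_mul, map_mul, Module.End.mul_apply, ht y hy, map_zero]

theorem U_sq_sub_one_mem_annFixed {M q : ℕ} [NeZero M] [Fact q.Prime] (hqM : q ∣ M) :
    CuspForm.heckeAlgebra.U (Fact.out : q.Prime) hqM (Set.notMem_empty q) *
      CuspForm.heckeAlgebra.U (Fact.out : q.Prime) hqM (Set.notMem_empty q) - 1 ∈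
      annFixed M q := by
  intro y hy
  rw [map_sub, map_mul, map_one, heckeAct_U hqM, LinearMap.sub_apply, Module.End.mul_apply,
    Module.End.one_apply, hy, sub_self]

theorem mem_annFixed_of_intCast_mul {M q : ℕ} [NeZero M] [Fact q.Prime] {n : ℤ} (hn : n ≠ 0)
    {t : HK.TFull M} (h : (n : HK.TFull M) * t ∈ annFixed M q) : t ∈ annFixed M q := by
  intro y hy
  have := h y hy
  rw [map_mul, Module.End.mul_apply, map_intCast, Module.End.intCast_apply] at this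
  have e := congrArg (HK.hCoord M ℤ) this
  rw [map_zsmul, map_zero] at e
  refine (HK.hCoord M ℤ).injective ?_
  rw [map_zero]
  funext i
  have ei := congrFun e i
  simp only [Pi.smul_apply, smul_eq_mul, Pi.zero_apply, mul_eq_zero] at ei
  exact ei.resolve_left hn

/-- Going down from a residual system killed with `J` to a prime of characteristic zero. -/
theorem exists_primes_over {T : Type*} [CommRing T] [Module.Finite ℤ T] (J : Ideal T)
    (htf : ∀ n : ℤ, n ≠ 0 → ∀ t : T, (n : T) * t ∈ J → t ∈ J) {R : Type*} [CommRing R]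
    (ev : R →+* T) {S : Type*} [CommRing S] [IsDomain S] (θ : R →+* S)
    (hker : ∀ r, ev r ∈ J → θ r = 0) :
    ∃ 𝔓 P : Ideal T, 𝔓.IsPrime ∧ P.IsPrime ∧ J ≤ 𝔓 ∧ 𝔓 ≤ P ∧
      (∀ n : ℕ, n ≠ 0 → (n : T) ∉ 𝔓) ∧ ∀ r, θ r = 0 → ev r ∈ P := by
  have : (RingHom.ker θ).IsPrime := RingHom.ker_isPrime θ
  let mk := Ideal.Quotient.mk J
  let _ := (mk.comp ev).toAlgebra
  have : Algebra.IsIntegral R (T ⧸ J) :=
    ⟨fun x => (Algebra.IsIntegral.isIntegral (R := ℤ) x).tower_top⟩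
  obtain ⟨𝔟, -, h𝔟prime, h𝔟⟩ := Ideal.exists_ideal_over_prime_of_isIntegral (RingHom.ker θ)
    (⊥ : Ideal (T ⧸ J)) (fun r hr => by
      rw [RingHom.mem_ker]
      exact hker r (Ideal.Quotient.eq_zero_iff_mem.mp hr))
  obtain ⟨𝔓, h𝔓min, h𝔓le⟩ :=
    Ideal.exists_minimalPrimes_le (I := (⊥ : Ideal (T ⧸ J))) (J := 𝔟) bot_le
  have : 𝔓.IsPrime := Ideal.IsMinimalPrime.isPrime h𝔓min
  refine ⟨𝔓.comap mk, 𝔟.comap mk, Ideal.comap_isPrime mk 𝔓, Ideal.comap_isPrime mk 𝔟,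
    fun t ht => ?_, Ideal.comap_mono h𝔓le, fun n hne h1 => ?_, fun r hr => ?_⟩
  · rw [Ideal.mem_comap, Ideal.Quotient.eq_zero_iff_mem.mpr ht]
    exact zero_mem _
  · rw [Ideal.mem_comap, map_natCast] at h1
    have h2 : (n : T ⧸ J) ∈ nonZeroDivisors (T ⧸ J) := by
      rw [mem_nonZeroDivisors_iff_right]
      intro x hx
      obtain ⟨t, rfl⟩ := Ideal.Quotient.mk_surjective x
      rw [mul_comm, ← map_natCast mk, ← map_mul, Ideal.Quotient.eq_zero_iff_mem] at hx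
      rw [Ideal.Quotient.eq_zero_iff_mem]
      exact htf n (by exact_mod_cast hne) t (by rwa [Int.cast_natCast])
    exact Set.disjoint_left.mp (Ideal.disjoint_nonZeroDivisors_of_mem_minimalPrimes h𝔓min) h1 h2
  · have : r ∈ Ideal.comap (algebraMap R (T ⧸ J)) 𝔟 := h𝔟.symm ▸ RingHom.mem_ker.mpr hr
    exact this

/-- A maximal ideal of the algebraic integers over a prime of a ring mapping to them. -/
theorem exists_maximal_over {T : Type*} [CommRing T] (lam : T →+* integralClosure ℤ ℂ)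
    (P : Ideal T) [P.IsPrime] (hP : RingHom.ker lam ≤ P) :
    ∃ 𝔪' : Ideal (integralClosure ℤ ℂ), 𝔪'.IsMaximal ∧ ∀ t ∈ P, lam t ∈ 𝔪' := by
  let _ := lam.toAlgebra
  have : Algebra.IsIntegral T (integralClosure ℤ ℂ) :=
    ⟨fun x => (Algebra.IsIntegral.isIntegral (R := ℤ) x).tower_top⟩
  obtain ⟨Q, -, hQ, hQc⟩ := Ideal.exists_ideal_over_prime_of_isIntegral P
    (⊥ : Ideal (integralClosure ℤ ℂ)) (fun t ht => hP (RingHom.mem_ker.mpr ht))
  obtain ⟨𝔪', h𝔪', hQle⟩ := Ideal.exists_le_maximal Q hQ.ne_top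
  refine ⟨𝔪', h𝔪', fun t ht => hQle ?_⟩
  have : t ∈ Ideal.comap (algebraMap T (integralClosure ℤ ℂ)) Q := hQc.symm ▸ ht
  exact this

set_option synthInstance.maxHeartbeats 200000 in
/-- An eigenform at level `M` lying over a prime residual eigen system killed with the `U_q²`-fixed
part. -/
theorem exists_eigenform_over {M q : ℕ} [NeZero M] [Fact q.Prime] (hqM : q ∣ M) {p : ℕ}
    [Fact p.Prime] (G : Set ℕ) (hG : ∀ ℓ ∈ G, Nat.Prime ℓ ∧ ¬ ℓ ∣ M)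
    (θ : MvPolynomial G ℤ →+* ZMod p)
    (hker : ∀ r : MvPolynomial G ℤ, evT M G hG r ∈ annFixed M q → θ r = 0) :
    ∃ (g : CuspForm (Gamma0 M) 2) (𝔪' : Ideal (integralClosure ℤ ℂ)),
      g.IsNormalizedEigenform ∧ 𝔪'.IsMaximal ∧ (p : integralClosure ℤ ℂ) ∈ 𝔪' ∧
      (∀ (ℓ : G) (n : ℤ), θ (MvPolynomial.X ℓ) = n →
        ∃ a : integralClosure ℤ ℂ, (a : ℂ) = qCoeff g ℓ ∧ a - (n : integralClosure ℤ ℂ) ∈ 𝔪') ∧
      qCoeff g q ^ 2 = 1 := by
  have : Module.Finite ℤ (HK.TFull M) := HK.moduleFinite_tFull M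
  obtain ⟨𝔓, P, h𝔓, hP, hJ, hle, hchar, hθP⟩ := exists_primes_over (annFixed M q)
    (fun n hn t ht => mem_annFixed_of_intCast_mul hn ht) (evT M G hG) θ hker
  have : CharZero (HK.TFull M ⧸ 𝔓) := charZero_of_inj_zero fun n hn => by
    by_contra hne
    rw [← map_natCast (Ideal.Quotient.mk 𝔓), Ideal.Quotient.eq_zero_iff_mem] at hn
    exact hchar n hne hn
  obtain ⟨g, hg, hgker⟩ :=
    Eigen.exists_eigenform_ker_eq (MF.IntStruct.hasIntegralStructure M 2) (Ideal.Quotient.mk 𝔓)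
  rw [Ideal.mk_ker] at hgker
  let lam : HK.TFull M →+* integralClosure ℤ ℂ := Eigen.eigenCharInt hg ∅
  have hlam : RingHom.ker lam = 𝔓 := by
    rw [← hgker]
    ext t
    rw [RingHom.mem_ker, RingHom.mem_ker, ← Eigen.coe_eigenCharInt hg ∅]
    exact ⟨fun h => by rw [h]; rfl, fun h => Subtype.ext h⟩
  obtain ⟨𝔪', h𝔪', hin⟩ := exists_maximal_over lam P (hlam.trans_le hle)
  refine ⟨g, 𝔪', hg, h𝔪', ?_, ?_, ?_⟩
  · have := hin _ (hθP (p : MvPolynomial G ℤ) (by rw [map_natCast, ZMod.natCast_self]))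
    rwa [map_natCast, map_natCast] at this
  · intro ℓ n hn
    refine ⟨Eigen.intCoeff hg ℓ, rfl, ?_⟩
    have := hin _ (hθP (MvPolynomial.X ℓ - (n : MvPolynomial G ℤ)) (by
      rw [map_sub, map_intCast, hn, sub_self]))
    rwa [map_sub, map_intCast, evT_X, map_sub, map_intCast, Eigen.eigenCharInt_T] at this
  · have h0 := hJ (U_sq_sub_one_mem_annFixed hqM)
    rw [← hgker, RingHom.mem_ker, map_sub, map_mul, map_one, Eigen.eigenChar_U] at h0
    rw [sq]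
    exact sub_eq_zero.mp h0

/-- Level raising at a prime `q` for a residually non-Eisenstein eigenform. -/
theorem exists_congruent_newAt {N p q : ℕ} [NeZero N] (hp : p.Prime) (hp2 : p ≠ 2) (hq : q.Prime)
    (hqN : ¬ q ∣ N) (hqp : q ≠ p) {f : CuspForm (Gamma0 N) 2} (hf : f.IsNormalizedEigenform)
    (𝔪 : Ideal (integralClosure ℤ ℂ)) (hmax : 𝔪.IsMaximal) (hpm : (p : integralClosure ℤ ℂ) ∈ 𝔪)
    (G : Set ℕ) (hG : ∀ ℓ ∈ G, Nat.Prime ℓ ∧ ¬ ℓ ∣ N * q) (c : ℕ → ℤ)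
    (hcong : ∀ ℓ ∈ G, ∃ a : integralClosure ℤ ℂ, (a : ℂ) = qCoeff f ℓ ∧
      a - (c ℓ : integralClosure ℤ ℂ) ∈ 𝔪)
    (hEis : ∃ ℓ ∈ G, (c ℓ : ZMod p) ≠ (ℓ : ZMod p) + 1)
    (hLR : ∃ a : integralClosure ℤ ℂ, (a : ℂ) = qCoeff f q ∧
      a ^ 2 - ((q : integralClosure ℤ ℂ) + 1) ^ 2 ∈ 𝔪) :
    ∃ (g : CuspForm (Gamma0 (N * q)) 2) (𝔪' : Ideal (integralClosure ℤ ℂ)),
      g.IsNormalizedEigenform ∧ 𝔪'.IsMaximal ∧ (p : integralClosure ℤ ℂ) ∈ 𝔪' ∧
      (∀ ℓ ∈ G, ∃ a : integralClosure ℤ ℂ, (a : ℂ) = qCoeff g ℓ ∧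
        a - (c ℓ : integralClosure ℤ ℂ) ∈ 𝔪') ∧
      qCoeff g q ^ 2 = 1 := by
  have : NeZero q := ⟨hq.ne_zero⟩
  have : Fact q.Prime := ⟨hq⟩
  have : Fact p.Prime := ⟨hp⟩
  have : NeZero (N * q) := ⟨mul_ne_zero (NeZero.ne N) hq.ne_zero⟩
  have : 𝔪.IsPrime := hmax.isPrime
  let θ : MvPolynomial G ℤ →+* ZMod p :=
    MvPolynomial.eval₂Hom (Int.castRingHom (ZMod p)) fun ℓ => (c ℓ : ZMod p)
  have hθX : ∀ ℓ : G, θ (MvPolynomial.X ℓ) = (c ℓ : ZMod p) := fun ℓ =>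
    MvPolynomial.eval₂Hom_X' _ _ _
  have : Module.Finite ℤ (HK.TFull N) := HK.moduleFinite_tFull N
  let χ : HK.TFull N →+* integralClosure ℤ ℂ := Eigen.eigenCharInt hf ∅
  have hGN : ∀ ℓ ∈ G, Nat.Prime ℓ ∧ ¬ ℓ ∣ N :=
    fun ℓ h => ⟨(hG ℓ h).1, fun hd => (hG ℓ h).2 (hd.mul_right q)⟩
  let mk𝔪 := Ideal.Quotient.mk 𝔪
  have hp0 : (p : integralClosure ℤ ℂ ⧸ 𝔪) = 0 := by
    rw [← map_natCast mk𝔪]
    exact Ideal.Quotient.eq_zero_iff_mem.mpr hpm
  have : CharP (integralClosure ℤ ℂ ⧸ 𝔪) p := (CharP.charP_iff_prime_eq_zero hp).mpr hp0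
  have hθ : ∀ r, θ r = 0 ↔ χ (evT N G hGN r) ∈ 𝔪 := by
    have e : (ZMod.castHom dvd_rfl (integralClosure ℤ ℂ ⧸ 𝔪)).comp θ =
        mk𝔪.comp (χ.comp (evT N G hGN)) := by
      refine MvPolynomial.ringHom_ext (fun n => ?_) (fun ℓ => ?_)
      · rw [show (MvPolynomial.C n : MvPolynomial G ℤ) = (n : MvPolynomial G ℤ) from
          RingHom.congr_fun (RingHom.ext_int MvPolynomial.C (Int.castRingHom _)) n,
          map_intCast, map_intCast]
      · obtain ⟨a, ha, hmem⟩ := hcong ℓ.1 ℓ.2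
        rw [RingHom.comp_apply, hθX, map_intCast, RingHom.comp_apply, RingHom.comp_apply, evT_X,
          Eigen.eigenCharInt_T]
        rw [show Eigen.intCoeff hf ℓ = a from Subtype.ext ha.symm, ← map_intCast mk𝔪]
        exact (Ideal.Quotient.eq.mpr hmem).symm
    intro r
    rw [← Ideal.Quotient.eq_zero_iff_mem]
    refine Iff.trans ?_ (Eq.congr_left (RingHom.congr_fun e r))
    exact (map_eq_zero_iff _ (ZMod.castHom_injective _)).symm
  obtain ⟨ℓ₀, hℓ₀G, hℓ₀⟩ := hEis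
  obtain ⟨a, ha, hmem⟩ := hLR
  have hq' : ∃ e : ℤ, e * e = 1 ∧ χ (CuspForm.heckeAlgebra.T hq hqN (Set.notMem_empty q)) -
      e * ((q : integralClosure ℤ ℂ) + 1) ∈ 𝔪 := by
    rw [Eigen.eigenCharInt_T, show Eigen.intCoeff hf q = a from Subtype.ext ha.symm]
    rw [sq_sub_sq] at hmem
    rcases Ideal.IsPrime.mem_or_mem inferInstance hmem with h | h
    · refine ⟨-1, rfl, ?_⟩
      convert h using 1
      push_cast
      ring
    · refine ⟨1, rfl, ?_⟩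
      convert h using 1
      push_cast
      ring
  have hkill := exists_ideal_new hp hp2 hqN hqp G hG χ 𝔪 hmax hpm θ hθ ⟨ℓ₀, hℓ₀G⟩
    (by rw [hθX]; exact hℓ₀) hq'
  obtain ⟨g, 𝔪', hg, h𝔪', hp', hc', hnew⟩ :=
    exists_eigenform_over (dvd_mul_left q N) G hG θ fun r hr => hkill r hr
  exact ⟨g, 𝔪', hg, h𝔪', hp', fun ℓ hℓ => hc' ⟨ℓ, hℓ⟩ (c ℓ) (hθX _), hnew⟩

end Fermat.Agent.LR
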